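/-
Programme AV (S26/S27), brick (S5) CLOSED-POINTS (helper31).

Over an algebraically closed field `K`:

* (i)  two `K`-morphisms `T ⟶ Z` from a reduced scheme locally of finite type over `K` to a
       separated `K`-scheme which agree on all `K`-points are equal
       (`ext_of_Kpoints`, `schemeHomOver_ext_of_Kpoints`, and the dense-open variants);
* (ii) a surjective `K`-morphism `σ : V ⟶ A` of schemes locally of finite type over `K` is
       surjective on `K`-points (`exists_Kpoint_lift_of_surjective`); in particular this holds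
       for `σ` universally closed (e.g. proper) and dominant
       (`exists_Kpoint_lift_of_isDominant`).

Only Mathlib and the Prelude's `SchemeHomOver` are used.
-/
import Mathlib
import Fermat.Prelude.Def_AlgebraicGeometry_NeronModelPropertyBundleCarrier

set_option autoImplicit false

noncomputable section

universe u

open CategoryTheory CategoryTheory.Limits AlgebraicGeometry NeronModelInfra

namespace Fermat.Agent.AV.ClosedPts31

variable {K : Type u} [Field K]

/-! ### `K`-points and closed points -/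

/-- The image of a `K`-point (a section of the structure morphism) is a closed point.
No hypothesis on `K` or `t` is needed. -/
theorem isClosed_Kpoint {T : Scheme.{u}} (t : T ⟶ Spec (CommRingCat.of K))
    (x : Spec (CommRingCat.of K) ⟶ T) (hx : x ≫ t = 𝟙 _) :
    IsClosed ({x (IsLocalRing.closedPoint K)} : Set T) := by
  have := isClosedImmersion_of_comp_eq_id _ _ hx
  have h := x.isClosedEmbedding.isClosed_range
  rwa [Set.range_eq_singleton] at h
  exact fun y ↦ congr(x $(Subsingleton.elim _ _))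

variable [IsAlgClosed K]

/-- Every closed point of a scheme locally of finite type over an algebraically closed field is
the image of a `K`-point. -/
theorem exists_Kpoint_of_isClosed {T : Scheme.{u}} (t : T ⟶ Spec (CommRingCat.of K))
    [LocallyOfFiniteType t] (p : T) (hp : IsClosed ({p} : Set T)) :
    ∃ x : Spec (CommRingCat.of K) ⟶ T, x ≫ t = 𝟙 _ ∧ x (IsLocalRing.closedPoint K) = p :=
  ⟨pointOfClosedPoint t p hp, pointOfClosedPoint_comp t p hp, pointOfClosedPoint_apply t p hp _⟩

/-- A nonempty scheme locally of finite type over an algebraically closed field has a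
`K`-point. -/
theorem exists_Kpoint_of_nonempty {T : Scheme.{u}} (t : T ⟶ Spec (CommRingCat.of K))
    [LocallyOfFiniteType t] [Nonempty T] :
    ∃ x : Spec (CommRingCat.of K) ⟶ T, x ≫ t = 𝟙 _ := by
  have : JacobsonSpace T := LocallyOfFiniteType.jacobsonSpace t
  obtain ⟨p, -, hp⟩ := nonempty_inter_closedPoints (Z := (Set.univ : Set T)) Set.univ_nonempty
    isClosed_univ.isLocallyClosed
  obtain ⟨x, hx, -⟩ := exists_Kpoint_of_isClosed t p hp
  exact ⟨x, hx⟩

/-- Two `K`-points with the same underlying point are equal. -/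
theorem Kpoint_ext {T : Scheme.{u}} (t : T ⟶ Spec (CommRingCat.of K)) [LocallyOfFiniteType t]
    {x y : Spec (CommRingCat.of K) ⟶ T} (hx : x ≫ t = 𝟙 _) (hy : y ≫ t = 𝟙 _)
    (h : x (IsLocalRing.closedPoint K) = y (IsLocalRing.closedPoint K)) : x = y :=
  ext_of_apply_closedPoint_eq t hx hy h

/-! ### (i) Morphisms are determined by their values on `K`-points -/

/-- **(i), general form.** `K` algebraically closed, `T` reduced and locally of finite type over
`K`, `Z` separated over `K`. Two `K`-morphisms `φ ψ : T ⟶ Z` which agree on all `K`-points whose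
underlying point lies in a dense locally closed subset `S` of `T` are equal. -/
theorem ext_of_Kpoints_of_dense {T Z : Scheme.{u}} (t : T ⟶ Spec (CommRingCat.of K))
    [LocallyOfFiniteType t] [IsReduced T] (z : Z ⟶ Spec (CommRingCat.of K)) [IsSeparated z]
    {φ ψ : T ⟶ Z} (hφ : φ ≫ z = t) (hψ : ψ ≫ z = t)
    (S : Set T) (hS : IsLocallyClosed S) (hS' : Dense S)
    (H : ∀ x : Spec (CommRingCat.of K) ⟶ T, x ≫ t = 𝟙 _ →
      x (IsLocalRing.closedPoint K) ∈ S → x ≫ φ = x ≫ ψ) : φ = ψ := by
  have : JacobsonSpace T := LocallyOfFiniteType.jacobsonSpace t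
  refine ext_of_fromSpecResidueField_eq φ ψ z (S ∩ closedPoints T) ?_ ?_ (hφ.trans hψ.symm)
  · rwa [dense_iff_closure_eq, JacobsonSpace.closure_inter_closedPoints_eq_closure hS,
      ← dense_iff_closure_eq]
  · rintro x ⟨hxS, hx⟩
    have hx' : IsClosed ({x} : Set T) := hx
    have hp : T.fromSpecResidueField x =
        Spec.map (residueFieldIsoBase t x hx').inv ≫ pointOfClosedPoint t x hx' := by
      rw [pointOfClosedPoint, ← Category.assoc, ← Spec.map_comp, Iso.hom_inv_id, Spec.map_id,
        Category.id_comp]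
    rw [hp, Category.assoc, Category.assoc]
    congr 1
    refine H _ (pointOfClosedPoint_comp t x hx') ?_
    have h := pointOfClosedPoint_apply t x hx' (IsLocalRing.closedPoint K)
    exact h.symm ▸ hxS

/-- **(i).** `K` algebraically closed, `T` reduced and locally of finite type over `K`, `Z`
separated over `K`. Two `K`-morphisms `φ ψ : T ⟶ Z` which agree on all `K`-points of `T` are
equal. -/
theorem ext_of_Kpoints {T Z : Scheme.{u}} (t : T ⟶ Spec (CommRingCat.of K))
    [LocallyOfFiniteType t] [IsReduced T] (z : Z ⟶ Spec (CommRingCat.of K)) [IsSeparated z]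
    {φ ψ : T ⟶ Z} (hφ : φ ≫ z = t) (hψ : ψ ≫ z = t)
    (H : ∀ x : Spec (CommRingCat.of K) ⟶ T, x ≫ t = 𝟙 _ → x ≫ φ = x ≫ ψ) : φ = ψ :=
  ext_of_Kpoints_of_dense t z hφ hψ Set.univ isClosed_univ.isLocallyClosed dense_univ
    fun x hx _ ↦ H x hx

/-- **(i), dense open form.** As `ext_of_Kpoints`, but agreement is only required on the
`K`-points landing in a dense open subscheme `U` of `T`. -/
theorem ext_of_Kpoints_of_denseOpen {T Z : Scheme.{u}} (t : T ⟶ Spec (CommRingCat.of K))
    [LocallyOfFiniteType t] [IsReduced T] (z : Z ⟶ Spec (CommRingCat.of K)) [IsSeparated z]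
    {φ ψ : T ⟶ Z} (hφ : φ ≫ z = t) (hψ : ψ ≫ z = t)
    (U : T.Opens) (hU : Dense (U : Set T))
    (H : ∀ x : Spec (CommRingCat.of K) ⟶ T, x ≫ t = 𝟙 _ →
      x (IsLocalRing.closedPoint K) ∈ U → x ≫ φ = x ≫ ψ) : φ = ψ :=
  ext_of_Kpoints_of_dense t z hφ hψ U U.isOpen.isLocallyClosed hU H

/-- **(i), `SchemeHomOver` form.** -/
theorem schemeHomOver_ext_of_Kpoints {T Z : Scheme.{u}} (t : T ⟶ Spec (CommRingCat.of K))
    [LocallyOfFiniteType t] [IsReduced T] (z : Z ⟶ Spec (CommRingCat.of K)) [IsSeparated z]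
    (φ ψ : SchemeHomOver t z)
    (H : ∀ x : SchemeHomOver (𝟙 (Spec (CommRingCat.of K))) t, x.1 ≫ φ.1 = x.1 ≫ ψ.1) :
    φ = ψ :=
  Subtype.ext (ext_of_Kpoints t z φ.2 ψ.2 fun x hx ↦ H ⟨x, hx⟩)

/-- **(i), pointwise form** (as in Mathlib's `ext_of_apply_eq`, which needs `Z` locally of finite
type): it suffices that `φ` and `ψ` agree as maps on closed points. -/
theorem ext_of_apply_closedPoints_eq {T Z : Scheme.{u}} (t : T ⟶ Spec (CommRingCat.of K))
    [LocallyOfFiniteType t] [IsReduced T] (z : Z ⟶ Spec (CommRingCat.of K)) [IsSeparated z]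
    [LocallyOfFiniteType z]
    {φ ψ : T ⟶ Z} (hφ : φ ≫ z = t) (hψ : ψ ≫ z = t)
    (H : ∀ p : T, IsClosed ({p} : Set T) → φ p = ψ p) : φ = ψ := by
  refine ext_of_Kpoints t z hφ hψ fun x hx ↦ ?_
  refine Kpoint_ext z (by rw [Category.assoc, hφ, hx]) (by rw [Category.assoc, hψ, hx]) ?_
  exact H _ (isClosed_Kpoint t x hx)

/-! ### (ii) Surjective morphisms are surjective on `K`-points -/

/-- **(ii), surjective form.** `K` algebraically closed, `V` and `A` locally of finite type over
`K`, `σ : V ⟶ A` a surjective `K`-morphism. Then every `K`-point of `A` lifts to a `K`-point of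
`V`. -/
theorem exists_Kpoint_lift_of_surjective {V A : Scheme.{u}} (g : V ⟶ Spec (CommRingCat.of K))
    [LocallyOfFiniteType g] (f : A ⟶ Spec (CommRingCat.of K)) [LocallyOfFiniteType f]
    (σ : V ⟶ A) (hσ : σ ≫ f = g) (hs : Function.Surjective σ)
    (a : Spec (CommRingCat.of K) ⟶ A) (ha : a ≫ f = 𝟙 _) :
    ∃ v : Spec (CommRingCat.of K) ⟶ V, v ≫ g = 𝟙 _ ∧ v ≫ σ = a := by
  have : JacobsonSpace V := LocallyOfFiniteType.jacobsonSpace g
  have hcl : IsClosed ({a (IsLocalRing.closedPoint K)} : Set A) := isClosed_Kpoint f a ha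
  obtain ⟨v₁, hv₁⟩ := hs (a (IsLocalRing.closedPoint K))
  have hne : (σ ⁻¹' {a (IsLocalRing.closedPoint K)}).Nonempty := ⟨v₁, hv₁⟩
  obtain ⟨v₀, hv₀, hv₀cl⟩ := nonempty_inter_closedPoints hne
    (hcl.preimage σ.continuous).isLocallyClosed
  refine ⟨pointOfClosedPoint g v₀ hv₀cl, pointOfClosedPoint_comp g v₀ hv₀cl, ?_⟩
  refine Kpoint_ext f ?_ ha ?_
  · rw [Category.assoc, hσ]
    exact pointOfClosedPoint_comp g v₀ hv₀cl
  · have h := pointOfClosedPoint_apply g v₀ hv₀cl (IsLocalRing.closedPoint K)
    have h2 : (pointOfClosedPoint g v₀ hv₀cl ≫ σ) (IsLocalRing.closedPoint K) =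
        σ (pointOfClosedPoint g v₀ hv₀cl (IsLocalRing.closedPoint K)) := rfl
    rw [h2, h]
    exact hv₀

/-- A dominant morphism which is a closed map is surjective. -/
theorem surjective_of_isClosedMap_of_isDominant {V A : Scheme.{u}} (σ : V ⟶ A) [IsDominant σ]
    (hσ : IsClosedMap σ) : Function.Surjective σ :=
  (surjective_of_isDominant_of_isClosed_range σ hσ.isClosed_range).surj

/-- A universally closed (e.g. proper) dominant morphism is surjective. -/
theorem surjective_of_universallyClosed_of_isDominant {V A : Scheme.{u}} (σ : V ⟶ A)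
    [UniversallyClosed σ] [IsDominant σ] : Function.Surjective σ :=
  surjective_of_isClosedMap_of_isDominant σ σ.isClosedMap

/-- **(ii).** `K` algebraically closed, `V` and `A` locally of finite type over `K`,
`σ : V ⟶ A` a universally closed (e.g. proper) dominant `K`-morphism. Then every `K`-point of `A`
lifts to a `K`-point of `V`. -/
theorem exists_Kpoint_lift_of_isDominant {V A : Scheme.{u}} (g : V ⟶ Spec (CommRingCat.of K))
    [LocallyOfFiniteType g] (f : A ⟶ Spec (CommRingCat.of K)) [LocallyOfFiniteType f]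
    (σ : V ⟶ A) (hσ : σ ≫ f = g) [UniversallyClosed σ] [IsDominant σ]
    (a : Spec (CommRingCat.of K) ⟶ A) (ha : a ≫ f = 𝟙 _) :
    ∃ v : Spec (CommRingCat.of K) ⟶ V, v ≫ g = 𝟙 _ ∧ v ≫ σ = a :=
  exists_Kpoint_lift_of_surjective g f σ hσ (surjective_of_universallyClosed_of_isDominant σ) a ha

/-- **(ii), `SchemeHomOver` form.** -/
theorem schemeHomOver_exists_Kpoint_lift {V A : Scheme.{u}} (g : V ⟶ Spec (CommRingCat.of K))
    [LocallyOfFiniteType g] (f : A ⟶ Spec (CommRingCat.of K)) [LocallyOfFiniteType f]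
    (σ : SchemeHomOver g f) [UniversallyClosed σ.1] [IsDominant σ.1]
    (a : SchemeHomOver (𝟙 (Spec (CommRingCat.of K))) f) :
    ∃ v : SchemeHomOver (𝟙 (Spec (CommRingCat.of K))) g, v.1 ≫ σ.1 = a.1 := by
  obtain ⟨v, hv, hva⟩ := exists_Kpoint_lift_of_isDominant g f σ.1 σ.2 a.1 a.2
  exact ⟨⟨v, hv⟩, hva⟩

/-- **(ii), proper source form.** If `V` is proper over `K` and `A` is separated and locally of
finite type over `K`, then any dominant `K`-morphism `σ : V ⟶ A` is surjective on `K`-points
(`σ` is automatically proper). -/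
theorem exists_Kpoint_lift_of_isProper_source {V A : Scheme.{u}}
    (g : V ⟶ Spec (CommRingCat.of K)) [IsProper g]
    (f : A ⟶ Spec (CommRingCat.of K)) [LocallyOfFiniteType f] [IsSeparated f]
    (σ : V ⟶ A) (hσ : σ ≫ f = g) [IsDominant σ]
    (a : Spec (CommRingCat.of K) ⟶ A) (ha : a ≫ f = 𝟙 _) :
    ∃ v : Spec (CommRingCat.of K) ⟶ V, v ≫ g = 𝟙 _ ∧ v ≫ σ = a := by
  have : IsProper (σ ≫ f) := by rw [hσ]; infer_instance
  have : IsProper σ := IsProper.of_comp σ f
  exact exists_Kpoint_lift_of_isDominant g f σ hσ a ha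

end Fermat.Agent.AV.ClosedPts31
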