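/-
Programme AV (S26/S27), brick (S5) CLOSED-POINTS, adapter to the CURV interface (helper31).

For a list `l` of pointed smooth proper curves mapping to a group scheme `(f, G)` over a field `K`
(`Curv33.CurveTo`):

* `isProper_prodHom`, `smooth_prodHom`: the product `prodObj l ⟶ Spec K` is proper and smooth;
* `isProper_sumMap`: the sum map `σ : prodObj l ⟶ A` is proper (for `f` separated);
* `sumPt_Kpoint_mem`: a subset of `A(K)` containing `0`, closed under addition and containing the
  images `φ_i(C_i(K))` contains `σ(V(K))`;
* `exists_Kpoint_sumMap_eq`: for `K` algebraically closed and `σ` dominant, every `K`-point of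
  `A` is `σ` of a `K`-point of the product;
* `forall_Kpoint_of_isDominant_sumMap`, `forall_Kpoint_of_curvStatement`: hence such a subset is
  all of `A(K)` (the form needed for the theorem of the square, step (4) of the masterplan).
-/
import Mathlib
import Fermat.Agent.AV.ClosedPts31
import Fermat.Agent.AV.Curv33.Iface

set_option autoImplicit false

noncomputable section

universe u

open CategoryTheory CategoryTheory.Limits AlgebraicGeometry NeronModelInfra GoodReductionJacobian

namespace Fermat.Agent.AV.ClosedPtsCurv31

open Fermat.Agent.AV.Curv33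

variable {K : Type u} [Field K] {A : Scheme.{u}} {f : A ⟶ Spec (CommRingCat.of K)}
  {e : SchemeHomOver (𝟙 (Spec (CommRingCat.of K))) f}

/-- The product of a list of proper curves is proper over `K`. -/
theorem isProper_prodHom (l : List (CurveTo f e)) : IsProper (prodHom l) := by
  induction l with
  | nil =>
    show IsProper (𝟙 (Spec (CommRingCat.of K)))
    infer_instance
  | cons X l ih =>
    show IsProper (pullback.fst X.c (prodHom l) ≫ X.c)
    have := ih
    infer_instance

/-- The product of a list of smooth curves is smooth over `K`. -/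
theorem smooth_prodHom (l : List (CurveTo f e)) : Smooth (prodHom l) := by
  induction l with
  | nil =>
    show Smooth (𝟙 (Spec (CommRingCat.of K)))
    infer_instance
  | cons X l ih =>
    show Smooth (pullback.fst X.c (prodHom l) ≫ X.c)
    have := ih
    have : Smooth X.c := X.smooth.smooth
    infer_instance

/-- The product of a list of curves is locally of finite type over `K`. -/
theorem locallyOfFiniteType_prodHom (l : List (CurveTo f e)) :
    LocallyOfFiniteType (prodHom l) := by
  have := isProper_prodHom l
  infer_instance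

variable (G : RelativeGroupLaw K f)

/-- The sum map of a list of proper curves into a separated group scheme is proper. -/
theorem isProper_sumMap [IsSeparated f] (l : List (CurveTo f e)) : IsProper (sumMap G l) := by
  have : IsProper (sumMap G l ≫ f) := by rw [sumMap_f]; exact isProper_prodHom l
  exact IsProper.of_comp (sumMap G l) f

/-- The two components of a `K`-point of `prod (X :: l)`. -/
def kptFst (X : CurveTo f e) (l : List (CurveTo f e))
    (v : SchemeHomOver (𝟙 (Spec (CommRingCat.of K))) (prodHom (X :: l))) :
    SchemeHomOver (𝟙 (Spec (CommRingCat.of K))) X.c :=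
  ⟨v.1 ≫ prodFst X l, by rw [Category.assoc, prodFst_c]; exact v.2⟩

/-- The two components of a `K`-point of `prod (X :: l)`. -/
def kptSnd (X : CurveTo f e) (l : List (CurveTo f e))
    (v : SchemeHomOver (𝟙 (Spec (CommRingCat.of K))) (prodHom (X :: l))) :
    SchemeHomOver (𝟙 (Spec (CommRingCat.of K))) (prodHom l) :=
  ⟨v.1 ≫ prodSnd X l, by rw [Category.assoc, prodSnd_hom]; exact v.2⟩

/-- The value of the sum map on a `K`-point `(x, w)` of `prod (X :: l)` is `φ(x) + σ(w)`. -/
theorem sumPt_cons_Kpoint (X : CurveTo f e) (l : List (CurveTo f e))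
    (v : SchemeHomOver (𝟙 (Spec (CommRingCat.of K))) (prodHom (X :: l))) :
    schemeHomOverComp v.1 v.2 (sumPt G (X :: l)) =
      G.mul (𝟙 (Spec (CommRingCat.of K)))
        (schemeHomOverComp (kptFst X l v).1 (kptFst X l v).2 X.φ)
        (schemeHomOverComp (kptSnd X l v).1 (kptSnd X l v).2 (sumPt G l)) := by
  rw [sumPt_cons, G.mul_natural]
  rfl

/-- A subset `S` of `A(K)` which contains `0`, is closed under addition and contains the image of
`C(K)` for every curve `C` of the list, contains the image of the sum map on `K`-points. -/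
theorem sumPt_Kpoint_mem (S : SchemeHomOver (𝟙 (Spec (CommRingCat.of K))) f → Prop)
    (h1 : S (G.one (𝟙 (Spec (CommRingCat.of K)))))
    (hmul : ∀ a b, S a → S b → S (G.mul (𝟙 (Spec (CommRingCat.of K))) a b))
    (l : List (CurveTo f e))
    (hl : ∀ X ∈ l, ∀ x : SchemeHomOver (𝟙 (Spec (CommRingCat.of K))) X.c,
      S (schemeHomOverComp x.1 x.2 X.φ))
    (v : SchemeHomOver (𝟙 (Spec (CommRingCat.of K))) (prodHom l)) :
    S (schemeHomOverComp v.1 v.2 (sumPt G l)) := by
  induction l with
  | nil =>
    have : schemeHomOverComp v.1 v.2 (sumPt G ([] : List (CurveTo f e))) =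
        G.one (𝟙 (Spec (CommRingCat.of K))) := G.one_natural _ _ _ _
    rw [this]
    exact h1
  | cons X l ih =>
    rw [sumPt_cons_Kpoint]
    refine hmul _ _ (hl X (List.mem_cons_self) _) (ih (fun Y hY ↦ hl Y (List.mem_cons_of_mem _ hY)) _)

variable [IsAlgClosed K]

/-- **Surjectivity of the sum map on `K`-points.** `K` algebraically closed, `f` separated and
locally of finite type, the sum map dominant: every `K`-point of `A` is the image of a `K`-point
of the product of the curves. -/
theorem exists_Kpoint_sumMap_eq [LocallyOfFiniteType f] [IsSeparated f]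
    (l : List (CurveTo f e)) [IsDominant (sumMap G l)]
    (a : SchemeHomOver (𝟙 (Spec (CommRingCat.of K))) f) :
    ∃ v : SchemeHomOver (𝟙 (Spec (CommRingCat.of K))) (prodHom l),
      schemeHomOverComp v.1 v.2 (sumPt G l) = a := by
  have := isProper_prodHom l
  obtain ⟨v, hv, hva⟩ := ClosedPts31.exists_Kpoint_lift_of_isProper_source (prodHom l) f
    (sumMap G l) (sumMap_f G l) a.1 a.2
  exact ⟨⟨v, hv⟩, Subtype.ext hva⟩

/-- `K` algebraically closed, `f` separated and locally of finite type, the sum map of the list
`l` dominant. A subset `S` of `A(K)` which contains `0`, is closed under addition and contains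
`φ_C(C(K))` for every curve `C` of the list is all of `A(K)`. -/
theorem forall_Kpoint_of_isDominant_sumMap [LocallyOfFiniteType f] [IsSeparated f]
    (l : List (CurveTo f e)) [IsDominant (sumMap G l)]
    (S : SchemeHomOver (𝟙 (Spec (CommRingCat.of K))) f → Prop)
    (h1 : S (G.one (𝟙 (Spec (CommRingCat.of K)))))
    (hmul : ∀ a b, S a → S b → S (G.mul (𝟙 (Spec (CommRingCat.of K))) a b))
    (hl : ∀ X ∈ l, ∀ x : SchemeHomOver (𝟙 (Spec (CommRingCat.of K))) X.c,
      S (schemeHomOverComp x.1 x.2 X.φ))
    (a : SchemeHomOver (𝟙 (Spec (CommRingCat.of K))) f) : S a := by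
  obtain ⟨v, rfl⟩ := exists_Kpoint_sumMap_eq G l a
  exact sumPt_Kpoint_mem G S h1 hmul l hl v

/-- The same, from `CurvStatement`: there is a list of `N` curves through the origin such that
any subset of `A(K)` containing `0`, closed under addition and containing the images of the
`K`-points of these curves is all of `A(K)`. -/
theorem forall_Kpoint_of_curvStatement [LocallyOfFiniteType f] [IsSeparated f] {N : ℕ}
    (h : CurvStatement G N) :
    ∃ l : List (CurveTo f (G.one (𝟙 (Spec (CommRingCat.of K))))), l.length = N ∧
      IsDominant (sumMap G l) ∧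
      ∀ S : SchemeHomOver (𝟙 (Spec (CommRingCat.of K))) f → Prop,
        S (G.one (𝟙 (Spec (CommRingCat.of K)))) →
        (∀ a b, S a → S b → S (G.mul (𝟙 (Spec (CommRingCat.of K))) a b)) →
        (∀ X ∈ l, ∀ x : SchemeHomOver (𝟙 (Spec (CommRingCat.of K))) X.c,
          S (schemeHomOverComp x.1 x.2 X.φ)) →
        ∀ a, S a := by
  obtain ⟨l, hlen, hdom⟩ := h
  exact ⟨l, hlen, hdom, fun S h1 hmul hl a ↦
    forall_Kpoint_of_isDominant_sumMap G l S h1 hmul hl a⟩

end Fermat.Agent.AV.ClosedPtsCurv31
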