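import Fermat.Agent.AV.SmoothCompl98Scheme
import Fermat.Agent.AV.Fact49.StalkUFD

/-!
# FACT (i)+(ii)+(iii) at ALL points (helper98)

For `f : X ⟶ Spec K` smooth, `K` algebraically closed: every local ring `𝒪_{X,z}` (closed point or
not) is a domain and a UFD, given FACT-i.  Non-closed points: `X` is a Jacobson space, so `z`
specialises to a closed point `x`, and `𝒪_{X,z}` is a localisation of `𝒪_{X,x}`
(helper49's `ufd_stalk_of_specializes`).
-/

universe u

open AlgebraicGeometry CategoryTheory IsLocalRing TopologicalSpace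

namespace Fermat.Agent.AV.SmoothCompl98

/-- The local ring at a generisation `y` of `x` is a domain if `𝒪_{X,x}` is. -/
theorem isDomain_stalk_of_specializes {X : Scheme.{u}} {x y : X} (h : y ⤳ x)
    [IsDomain (X.presheaf.stalk x)] : IsDomain (X.presheaf.stalk y) := by
  obtain ⟨W, hW, hxW, -⟩ :=
    exists_isAffineOpen_mem_and_subset (X := X) (x := x) (U := ⊤) trivial
  have hyW : y ∈ W := h.mem_open W.2 hxW
  let _ := TopCat.Presheaf.algebra_section_stalk X.presheaf (⟨x, hxW⟩ : W)
  let _ := TopCat.Presheaf.algebra_section_stalk X.presheaf (⟨y, hyW⟩ : W)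
  have hlocx : IsLocalization.AtPrime (X.presheaf.stalk x)
      (hW.primeIdealOf ⟨x, hxW⟩).asIdeal := hW.isLocalization_stalk ⟨x, hxW⟩
  have hlocy : IsLocalization.AtPrime (X.presheaf.stalk y)
      (hW.primeIdealOf ⟨y, hyW⟩).asIdeal := hW.isLocalization_stalk ⟨y, hyW⟩
  let _ : Algebra (X.presheaf.stalk x) (X.presheaf.stalk y) :=
    (X.presheaf.stalkSpecializes h).hom.toAlgebra
  have htower : IsScalarTower Γ(X, W) (X.presheaf.stalk x) (X.presheaf.stalk y) := by
    apply IsScalarTower.of_algebraMap_eq'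
    simp only [RingHom.algebraMap_toAlgebra]
    rw [← CommRingCat.hom_comp, X.presheaf.germ_stalkSpecializes]
  have hle : (hW.primeIdealOf ⟨x, hxW⟩).asIdeal.primeCompl ≤
      (hW.primeIdealOf ⟨y, hyW⟩).asIdeal.primeCompl := by
    intro b hb
    have hb' : ¬ b ∈ (hW.primeIdealOf ⟨x, hxW⟩).asIdeal := hb
    have hgoal : ¬ b ∈ (hW.primeIdealOf ⟨y, hyW⟩).asIdeal := by
      rw [Fact49.StalkUFD.mem_primeIdealOf_iff, not_not] at hb' ⊢
      exact h.mem_open (X.basicOpen b).2 hb'
    exact hgoal
  have hloc := IsLocalization.isLocalization_of_submonoid_le (X.presheaf.stalk x)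
    (X.presheaf.stalk y) _ _ hle
  refine IsLocalization.isDomain_of_le_nonZeroDivisors (R := X.presheaf.stalk x)
    (M := ((hW.primeIdealOf ⟨y, hyW⟩).asIdeal.primeCompl).map
      (algebraMap Γ(X, W) (X.presheaf.stalk x))) (X.presheaf.stalk y) ?_
  rintro _ ⟨b, hb, rfl⟩
  rw [mem_nonZeroDivisors_iff_ne_zero]
  intro h0
  have hu : IsUnit (algebraMap Γ(X, W) (X.presheaf.stalk y) b) :=
    IsLocalization.map_units (X.presheaf.stalk y)
      (⟨b, hb⟩ : (hW.primeIdealOf ⟨y, hyW⟩).asIdeal.primeCompl)
  rw [IsScalarTower.algebraMap_apply Γ(X, W) (X.presheaf.stalk x) (X.presheaf.stalk y)] at hu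
  have h0' : (algebraMap Γ(X, W) (X.presheaf.stalk x)) b = 0 := h0
  rw [h0', map_zero] at hu
  exact not_isUnit_zero hu

variable {K : Type u} [Field K] {X : Scheme.{u}} (f : X ⟶ Spec (CommRingCat.of K))

/-- Every point of a scheme locally of finite type over a field specialises to a closed point. -/
theorem exists_closed_specialization [LocallyOfFiniteType f] (z : X) :
    ∃ x : X, IsClosed ({x} : Set X) ∧ z ⤳ x := by
  have : JacobsonSpace X := LocallyOfFiniteType.jacobsonSpace f
  obtain ⟨x, hx, hxc⟩ := nonempty_inter_closedPoints (X := X) (Z := closure {z})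
    ⟨z, subset_closure rfl⟩ isClosed_closure.isLocallyClosed
  exact ⟨x, hxc, specializes_iff_mem_closure.2 hx⟩

/-- **FACT (i)+(ii)+(iii), all points**: every local ring of a smooth scheme over an algebraically
closed field `K` is a domain and a UFD, given that power series rings over `K` are UFDs. -/
theorem isDomain_and_ufm_stalk_all [IsAlgClosed K] [Smooth f]
    (hPS : ∀ g : ℕ, UniqueFactorizationMonoid (MvPowerSeries (Fin g) K)) (z : X) :
    ∃ _ : IsDomain (X.presheaf.stalk z), UniqueFactorizationMonoid (X.presheaf.stalk z) := by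
  obtain ⟨x, hxc, hzx⟩ := exists_closed_specialization f z
  obtain ⟨hdom, hufd⟩ := isDomain_and_ufm_stalk f x hxc hPS
  exact ⟨isDomain_stalk_of_specializes hzx, Fact49.StalkUFD.ufd_stalk_of_specializes hzx⟩

/-- The form consumed by helper49's `Fact49.PurityClosed.exists_cartier_data_of_closedPoints`. -/
theorem ufm_stalk_of_isClosed [IsAlgClosed K] [Smooth f]
    (hPS : ∀ g : ℕ, UniqueFactorizationMonoid (MvPowerSeries (Fin g) K)) :
    ∀ x : X, IsClosed ({x} : Set X) → UniqueFactorizationMonoid (X.presheaf.stalk x) :=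
  fun x hx => (isDomain_and_ufm_stalk f x hx hPS).2

end Fermat.Agent.AV.SmoothCompl98
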