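/-
Programme AV (S26/S27), brick FACT-ii (bricks row 404), helper96.

`GcdDescent96`: **descent of unique factorisation along a faithfully flat map out of a local ring.**

Let `R` be a local ring and `R → R'` a faithfully flat ring map with `R'` a UFD (a domain which is a
`UniqueFactorizationMonoid`).  Then `R` is a domain and a UFD.  No noetherian hypothesis, no
normality, and `R'` need not be local.

Proof.  `R → R'` is injective, so `R` is a domain; divisibility descends (`a R' ∩ R = a R`), hence so
does well-foundedness of `DvdNotUnit`.  For `a, b ∈ R` nonzero let `ℓ' = lcm(a, b)` in `R'`.  Writing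
`ℓ' = a x = b y` and applying the equational criterion of flatness to the relation `a x - b y = 0`
gives common multiples `d_j = a α_j = b β_j ∈ R` with `ℓ' = ∑ d_j z_j`; as `d_j = ℓ' e_j` we get
`∑ e_j z_j = 1`, so some `e_{j₀} ∉ 𝔪 R'` (`𝔪 R' ≠ R'` by faithful flatness).  For any common multiple
`d = ℓ' e_d` in `R`, the equational criterion for `d e_{j₀} - d_{j₀} e_d = 0` and `e_{j₀} ∉ 𝔪 R'`
produce a UNIT `u` of the local ring `R` with `d u ∈ d_{j₀} R`.  So `d_{j₀}` is an lcm of `a, b` in
`R`: `R` is a GCD domain with well-founded divisibility, i.e. a UFD.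

Main statements:
* `exists_pair_of_smul_add_smul_eq_zero` : the equational criterion for a two-term relation;
* `dvd_of_algebraMap_dvd`, `isUnit_of_isUnit_algebraMap`, `algebraMap_injective'`;
* `isDomain_of_faithfullyFlat`, `wfDvdMonoid_of_faithfullyFlat`;
* `exists_lcm_of_faithfullyFlat` : existence of lcm's descends (`R` local);
* `isGCDMonoid_of_faithfullyFlat`, `uniqueFactorizationMonoid_of_faithfullyFlat`;
* `isDomain_of_adicCompletion`, `uniqueFactorizationMonoid_of_adicCompletion` : the case
  `R' = AdicCompletion 𝔪 R` for a noetherian local ring `R`.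
-/
import Mathlib

set_option autoImplicit false

namespace Fermat.Agent.AV.GcdDescent96

open IsLocalRing

/-! ### The equational criterion for two-term relations -/

section TwoTerm

variable {R M : Type*} [CommRing R] [AddCommGroup M] [Module R M]

/-- **Equational criterion of flatness, two-term relations**: if `r • x + s • y = 0` in a flat
module then `x = ∑ α_j • z_j`, `y = ∑ β_j • z_j` with `r α_j + s β_j = 0` for all `j`. -/
theorem exists_pair_of_smul_add_smul_eq_zero [Module.Flat R M] {r s : R} {x y : M}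
    (h : r • x + s • y = 0) :
    ∃ (k : ℕ) (α β : Fin k → R) (z : Fin k → M),
      x = ∑ j, α j • z j ∧ y = ∑ j, β j • z j ∧ ∀ j, r * α j + s * β j = 0 := by
  have h' : ∑ i : Fin 2, (![r, s] i) • (![x, y] i) = 0 := by
    rw [Fin.sum_univ_two]
    exact h
  obtain ⟨k, a, z, hx, ha⟩ := Module.Flat.isTrivialRelation_of_sum_smul_eq_zero h'
  refine ⟨k, a 0, a 1, z, ?_, ?_, fun j => ?_⟩
  · exact hx 0
  · exact hx 1
  · have := ha j
    rw [Fin.sum_univ_two] at this
    exact this

/-- The same for an algebra, with the relation written multiplicatively. -/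
theorem exists_pair_of_mul_add_mul_eq_zero {R' : Type*} [CommRing R'] [Algebra R R']
    [Module.Flat R R'] {r s : R} {x y : R'}
    (h : algebraMap R R' r * x + algebraMap R R' s * y = 0) :
    ∃ (k : ℕ) (α β : Fin k → R) (z : Fin k → R'),
      x = ∑ j, algebraMap R R' (α j) * z j ∧ y = ∑ j, algebraMap R R' (β j) * z j ∧
        ∀ j, r * α j + s * β j = 0 := by
  have h' : r • x + s • y = 0 := by
    rw [Algebra.smul_def, Algebra.smul_def]
    exact h
  obtain ⟨k, α, β, z, hx, hy, hab⟩ :=
    exists_pair_of_smul_add_smul_eq_zero (R := R) (M := R') (r := r) (s := s) (x := x) (y := y) h'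
  refine ⟨k, α, β, z, ?_, ?_, hab⟩
  · rw [hx]
    exact Finset.sum_congr rfl fun j _ => Algebra.smul_def _ _
  · rw [hy]
    exact Finset.sum_congr rfl fun j _ => Algebra.smul_def _ _

end TwoTerm

/-! ### Elementary descent along a faithfully flat ring map -/

section Descent

variable {R R' : Type*} [CommRing R] [CommRing R'] [Algebra R R'] [Module.FaithfullyFlat R R']

/-- Divisibility descends along a faithfully flat ring map. -/
theorem dvd_of_algebraMap_dvd {a d : R} (h : algebraMap R R' a ∣ algebraMap R R' d) : a ∣ d := by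
  have h1 : d ∈ ((Ideal.span {a} : Ideal R).map (algebraMap R R')).comap (algebraMap R R') := by
    rw [Ideal.mem_comap, Ideal.map_span, Set.image_singleton]
    exact Ideal.mem_span_singleton.mpr h
  rw [Ideal.comap_map_eq_self_of_faithfullyFlat] at h1
  exact Ideal.mem_span_singleton.mp h1

/-- A faithfully flat ring map is injective. -/
theorem algebraMap_injective' : Function.Injective (algebraMap R R') := by
  rw [injective_iff_map_eq_zero]
  intro a ha
  have : (0 : R) ∣ a := dvd_of_algebraMap_dvd (R' := R') (by rw [ha, map_zero])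
  exact zero_dvd_iff.mp this

/-- Units descend along a faithfully flat ring map. -/
theorem isUnit_of_isUnit_algebraMap {a : R} (h : IsUnit (algebraMap R R' a)) : IsUnit a := by
  rw [isUnit_iff_dvd_one]
  apply dvd_of_algebraMap_dvd (R' := R')
  rw [map_one]
  exact h.dvd

variable (R R')

/-- The source of a faithfully flat ring map into a domain is a domain. -/
theorem isDomain_of_faithfullyFlat [IsDomain R'] : IsDomain R :=
  (algebraMap_injective' (R := R) (R' := R')).isDomain (algebraMap R R')

/-- `DvdNotUnit` is preserved by a faithfully flat map into a domain. -/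
theorem dvdNotUnit_algebraMap [IsDomain R'] {a b : R} (h : DvdNotUnit a b) :
    DvdNotUnit (algebraMap R R' a) (algebraMap R R' b) := by
  obtain ⟨ha, x, hx, rfl⟩ := h
  refine ⟨fun h0 => ha (algebraMap_injective' (R' := R') (by rw [h0, map_zero])),
    algebraMap R R' x, fun hu => hx (isUnit_of_isUnit_algebraMap hu), map_mul _ _ _⟩

/-- Well-foundedness of strict divisibility descends along a faithfully flat map into a domain. -/
theorem wfDvdMonoid_of_faithfullyFlat [IsDomain R'] [WfDvdMonoid R'] : WfDvdMonoid R :=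
  ⟨Subrelation.wf (fun {_ _} h => dvdNotUnit_algebraMap R R' h)
    (InvImage.wf (algebraMap R R') (wellFounded_dvdNotUnit (α := R')))⟩

end Descent

/-! ### Descent of lcm's for a local source -/

section Lcm

variable {R R' : Type*} [CommRing R] [IsLocalRing R] [CommRing R'] [IsDomain R'] [Algebra R R']
  [Module.FaithfullyFlat R R']

omit [IsDomain R'] [Module.FaithfullyFlat R R'] in
/-- If `∑ α_j • z_j ∉ 𝔪 R'` then some `α_j` is a unit of the local ring `R`. -/
theorem exists_isUnit_of_sum_smul_notMem {k : ℕ} (α : Fin k → R) (z : Fin k → R')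
    (h : ∑ j, algebraMap R R' (α j) * z j ∉ (maximalIdeal R).map (algebraMap R R')) :
    ∃ j, IsUnit (α j) := by
  by_contra hcon
  have hcon' : ∀ j, ¬ IsUnit (α j) := fun j hj => hcon ⟨j, hj⟩
  apply h
  refine Ideal.sum_mem _ fun j _ => ?_
  exact Ideal.mul_mem_right _ _
    (Ideal.mem_map_of_mem _ ((mem_maximalIdeal _).mpr (hcon' j)))

omit [IsDomain R'] in
/-- **Key step**: if `c, d ∈ R` with `c = ℓ' e`, `d = ℓ' e_d` in `R'` and
`e ∉ 𝔪 R'`, then `c ∣ d` in `R`. -/
theorem dvd_of_notMem_map_maximalIdeal {ℓ' e e_d : R'} {c d : R}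
    (hc : algebraMap R R' c = ℓ' * e) (hd : algebraMap R R' d = ℓ' * e_d)
    (he : e ∉ (maximalIdeal R).map (algebraMap R R')) : c ∣ d := by
  have hrel : algebraMap R R' d * e + algebraMap R R' (-c) * e_d = 0 := by
    rw [map_neg, hc, hd]
    ring
  obtain ⟨k, α, β, w, hα, hβ, hαβ⟩ := exists_pair_of_mul_add_mul_eq_zero hrel
  rw [hα] at he
  obtain ⟨j, hj⟩ := exists_isUnit_of_sum_smul_notMem α w he
  obtain ⟨u, hu⟩ := hj
  have h1 : d * α j = c * β j := by
    have := hαβ j
    linear_combination this
  refine ⟨β j * ↑u⁻¹, ?_⟩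
  calc d = d * α j * ↑u⁻¹ := by rw [← hu, mul_assoc, Units.mul_inv, mul_one]
    _ = c * (β j * ↑u⁻¹) := by rw [h1, mul_assoc]

/-- **Descent of lcm's**: `R` local, `R → R'` faithfully flat, `R'` a domain in which any two
elements have an lcm.  Then any two elements of `R` have an lcm. -/
theorem exists_lcm_of_faithfullyFlat
    (hlcm : ∀ a' b' : R', ∃ c' : R', ∀ d' : R', a' ∣ d' ∧ b' ∣ d' ↔ c' ∣ d') (a b : R) :
    ∃ c : R, ∀ d : R, a ∣ d ∧ b ∣ d ↔ c ∣ d := by
  classical
  by_cases ha : a = 0
  · refine ⟨0, fun d => ⟨fun h => ha ▸ h.1, fun h => ?_⟩⟩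
    have hd : d = 0 := zero_dvd_iff.mp h
    rw [hd]
    exact ⟨dvd_zero _, dvd_zero _⟩
  by_cases hb : b = 0
  · refine ⟨0, fun d => ⟨fun h => hb ▸ h.2, fun h => ?_⟩⟩
    have hd : d = 0 := zero_dvd_iff.mp h
    rw [hd]
    exact ⟨dvd_zero _, dvd_zero _⟩
  have hinj : Function.Injective (algebraMap R R') := algebraMap_injective'
  have hfa : algebraMap R R' a ≠ 0 := fun h0 => ha (hinj (by rw [h0, map_zero]))
  have hfb : algebraMap R R' b ≠ 0 := fun h0 => hb (hinj (by rw [h0, map_zero]))
  obtain ⟨ℓ', hℓ'⟩ := hlcm (algebraMap R R' a) (algebraMap R R' b)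
  -- `ℓ' ≠ 0`
  have hℓ0 : ℓ' ≠ 0 := by
    intro h0
    have h1 : ℓ' ∣ algebraMap R R' a * algebraMap R R' b :=
      (hℓ' _).mp ⟨dvd_mul_right _ _, dvd_mul_left _ _⟩
    rw [h0, zero_dvd_iff] at h1
    exact mul_ne_zero hfa hfb h1
  -- `ℓ' = a x = b y`
  obtain ⟨⟨x, hx⟩, ⟨y, hy⟩⟩ := (hℓ' ℓ').mpr dvd_rfl
  have hrel : algebraMap R R' a * x + algebraMap R R' (-b) * y = 0 := by
    rw [map_neg, ← hx, neg_mul, ← hy]
    ring
  obtain ⟨k, α, β, z, hα, hβ, hαβ⟩ := exists_pair_of_mul_add_mul_eq_zero hrel
  -- the common multiples `d_j = a α_j = b β_j`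
  have hd : ∀ j, a * α j = b * β j := fun j => by
    have := hαβ j
    linear_combination this
  have hdiv : ∀ j, ℓ' ∣ algebraMap R R' (a * α j) := fun j =>
    (hℓ' _).mp ⟨by rw [map_mul]; exact dvd_mul_right _ _,
      by rw [hd j, map_mul]; exact dvd_mul_right _ _⟩
  choose e he using hdiv
  -- `∑ e_j z_j = 1`
  have hsum : ∑ j, e j * z j = 1 := by
    have h1 : ℓ' = ℓ' * ∑ j, e j * z j := by
      conv_lhs => rw [hx, hα, Finset.mul_sum]
      rw [Finset.mul_sum]
      refine Finset.sum_congr rfl fun j _ => ?_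
      rw [← mul_assoc, ← map_mul, he j, mul_assoc]
    have h2 : ℓ' * 1 = ℓ' * ∑ j, e j * z j := by rw [mul_one]; exact h1
    exact (mul_left_cancel₀ hℓ0 h2).symm
  -- some `e_j ∉ 𝔪 R'`
  have hex : ∃ j, e j ∉ (maximalIdeal R).map (algebraMap R R') := by
    by_contra hcon
    have hcon' : ∀ j, e j ∈ (maximalIdeal R).map (algebraMap R R') := fun j => by
      by_contra hj
      exact hcon ⟨j, hj⟩
    have h1 : (1 : R') ∈ (maximalIdeal R).map (algebraMap R R') := by
      rw [← hsum]
      exact Ideal.sum_mem _ fun j _ => Ideal.mul_mem_right _ _ (hcon' j)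
    have h2 : (maximalIdeal R).map (algebraMap R R') = ⊤ := (Ideal.eq_top_iff_one _).mpr h1
    have h3 : maximalIdeal R = ⊤ := by
      rw [← Ideal.comap_map_eq_self_of_faithfullyFlat (B := R') (maximalIdeal R), h2,
        Ideal.comap_top]
    exact (maximalIdeal.isMaximal R).ne_top h3
  obtain ⟨j₀, hj₀⟩ := hex
  refine ⟨a * α j₀, fun d => ⟨fun h => ?_, fun h => ?_⟩⟩
  · -- `d` a common multiple: `d = ℓ' e_d` in `R'`
    obtain ⟨e_d, hed⟩ : ℓ' ∣ algebraMap R R' d :=
      (hℓ' _).mp ⟨(algebraMap R R').map_dvd h.1, (algebraMap R R').map_dvd h.2⟩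
    exact dvd_of_notMem_map_maximalIdeal (he j₀) hed hj₀
  · exact ⟨(dvd_mul_right a (α j₀)).trans h, by rw [hd j₀] at h; exact (dvd_mul_right b (β j₀)).trans h⟩

end Lcm

/-! ### The main theorems -/

section Main

variable (R R' : Type*) [CommRing R] [IsLocalRing R] [CommRing R'] [IsDomain R'] [Algebra R R']
  [Module.FaithfullyFlat R R']

/-- **GCD descent**: `R` a local domain, `R → R'` faithfully flat, `R'` a GCD domain.  Then `R` is
a GCD domain. -/
theorem isGCDMonoid_of_faithfullyFlat [IsDomain R] [IsGCDMonoid R'] : IsGCDMonoid R :=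
  isGCDMonoid_iff_exists_lcm.mpr ⟨inferInstance,
    exists_lcm_of_faithfullyFlat (isGCDMonoid_iff_exists_lcm.mp (inferInstance : IsGCDMonoid R')).2⟩

/-- **UFD descent** (FACT-ii): `R` a local ring (a domain, cf. `isDomain_of_faithfullyFlat`),
`R → R'` faithfully flat, `R'` a UFD.  Then `R` is a UFD. -/
theorem uniqueFactorizationMonoid_of_faithfullyFlat [IsDomain R] [UniqueFactorizationMonoid R'] :
    UniqueFactorizationMonoid R := by
  have : IsGCDMonoid R := isGCDMonoid_of_faithfullyFlat R R'
  have : WfDvdMonoid R := wfDvdMonoid_of_faithfullyFlat R R'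
  exact ufm_of_decomposition_of_wfDvdMonoid

/-- Both conclusions at once. -/
theorem isDomain_and_ufm_of_faithfullyFlat [UniqueFactorizationMonoid R'] :
    ∃ _ : IsDomain R, UniqueFactorizationMonoid R :=
  ⟨isDomain_of_faithfullyFlat R R',
    @uniqueFactorizationMonoid_of_faithfullyFlat R R' _ _ _ _ _ _
      (isDomain_of_faithfullyFlat R R') _⟩

end Main

/-! ### The adic completion of a noetherian local ring -/

section Completion

variable (R : Type*) [CommRing R] [IsNoetherianRing R] [IsLocalRing R]

/-- The completion of a noetherian local ring is faithfully flat over it.  (A plain theorem, not a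
global instance; use `have := faithfullyFlat_adicCompletion R`.) -/
theorem faithfullyFlat_adicCompletion :
    Module.FaithfullyFlat R (AdicCompletion (maximalIdeal R) R) :=
  Module.FaithfullyFlat.of_flat_of_isLocalHom

/-- A noetherian local ring whose completion is a domain is a domain. -/
theorem isDomain_of_adicCompletion [IsDomain (AdicCompletion (maximalIdeal R) R)] : IsDomain R :=
  have := faithfullyFlat_adicCompletion R
  isDomain_of_faithfullyFlat R (AdicCompletion (maximalIdeal R) R)

/-- **A noetherian local ring whose completion is a UFD is a UFD.** -/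
theorem uniqueFactorizationMonoid_of_adicCompletion [IsDomain R]
    [IsDomain (AdicCompletion (maximalIdeal R) R)]
    [UniqueFactorizationMonoid (AdicCompletion (maximalIdeal R) R)] :
    UniqueFactorizationMonoid R :=
  have := faithfullyFlat_adicCompletion R
  uniqueFactorizationMonoid_of_faithfullyFlat R (AdicCompletion (maximalIdeal R) R)

/-- Both at once: a noetherian local ring whose completion is a UFD is a domain and a UFD. -/
theorem isDomain_and_ufm_of_adicCompletion [IsDomain (AdicCompletion (maximalIdeal R) R)]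
    [UniqueFactorizationMonoid (AdicCompletion (maximalIdeal R) R)] :
    ∃ _ : IsDomain R, UniqueFactorizationMonoid R :=
  have := faithfullyFlat_adicCompletion R
  isDomain_and_ufm_of_faithfullyFlat R (AdicCompletion (maximalIdeal R) R)

end Completion

end Fermat.Agent.AV.GcdDescent96
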