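/-
Fermat/Agent/AV/NormPic62.lean  (helper62)

Programme AV (S26/S27), piece (S4) NORM-STEP of the SQ/CUBE split: **Lemma D on Picard groups.**

Let `f : X ⟶ Y` be a universally closed dominant morphism of integral schemes, `Y` normal (all rings
of sections over affine opens integrally closed).  If `a ∈ Pic Y` pulls back to the trivial class on
`X`, then `a ^ degree f = 1` in `Pic Y` (`degree f = [K(X) : K(Y)]`, `0` if infinite).

Proof: Čech description of `Pic` (`Pic38/Cech`): represent `a` by a cocycle on an open cover, refine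
to a cover by nonempty affine opens (`toPic_refine`), pull back (`map_toPic`), read the triviality of
the pull-back as a coboundary on `X` (`toPic_eq_one_iff`), take norms (`NormD43.exists_units_pow_degree`),
and read the resulting coboundary on `Y` back (`toPic_eq_one_iff`).
-/
import Mathlib
import Fermat.Agent.AV.Pic38.Cech
import Fermat.Agent.AV.NormD43.Main

set_option autoImplicit false

universe u

open CategoryTheory AlgebraicGeometry TopologicalSpace Opposite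

namespace Fermat.Agent.AV.NormPic62

open Fermat.Agent.Jac.ModGlue88 Fermat.Agent.AV.Pic38 Fermat.Agent.AV.NormD43

variable {X Y : Scheme.{u}}

/-- Every open cover of a scheme is refined by a cover by nonempty affine opens. -/
theorem exists_affine_refinement (𝒲 : Cover Y) :
    ∃ (𝒱 : Cover Y) (ρ : 𝒱.ι → 𝒲.ι), (∀ i, 𝒱.W i ≤ 𝒲.W (ρ i)) ∧
      (∀ i, IsAffineOpen (𝒱.W i)) ∧ ∀ i, ((𝒱.W i : Y.Opens) : Set Y).Nonempty := by
  have h1 : ∀ y : Y, ∃ i, y ∈ 𝒲.W i := by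
    intro y
    have : y ∈ iSup 𝒲.W := by rw [𝒲.cover]; trivial
    exact TopologicalSpace.Opens.mem_iSup.mp this
  choose ρ hρ using h1
  have h2 : ∀ y : Y, ∃ V : Y.Opens, IsAffineOpen V ∧ y ∈ V ∧ V ≤ 𝒲.W (ρ y) := by
    intro y
    obtain ⟨V, hV, hy, hle⟩ :=
      TopologicalSpace.Opens.isBasis_iff_nbhd.mp Y.isBasis_affineOpens (hρ y)
    exact ⟨V, hV, hy, hle⟩
  choose V hV using h2
  exact ⟨Cover.ofNhds V (fun y => (hV y).2.1), ρ, fun y => (hV y).2.2, fun y => (hV y).1,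
    fun y => ⟨y, (hV y).2.1⟩⟩

/-- The kernel of `toPic` on a pulled back cover, with the pull-back cover unfolded. -/
theorem exists_coboundary_of_map_toPic_eq_one (f : X ⟶ Y) (𝒱 : Cover Y) (g' : Z1 𝒱)
    (ha : Pic.map f (toPic 𝒱 g') = 1) :
    ∃ h : ∀ i : 𝒱.ι, (Γ(X, f ⁻¹ᵁ 𝒱.W i))ˣ, ∀ i j : 𝒱.ι,
      appU f (𝒱.W i ⊓ 𝒱.W j) (g'.1 i j) =
        resU X (f.preimage_mono (inf_le_right : 𝒱.W i ⊓ 𝒱.W j ≤ 𝒱.W j)) (h j) *
          (resU X (f.preimage_mono (inf_le_left : 𝒱.W i ⊓ 𝒱.W j ≤ 𝒱.W i)) (h i))⁻¹ := by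
  rw [map_toPic, toPic_eq_one_iff] at ha
  obtain ⟨h, hh⟩ := ha
  exact ⟨h, hh⟩

/-- **Lemma D, cover form**: a Čech cocycle on a cover of `Y` by nonempty affine opens whose class
becomes trivial on `X` has class killed by `degree f`. -/
theorem toPic_pow_degree_eq_one (f : X ⟶ Y) [IsIntegral X] [IsIntegral Y]
    [UniversallyClosed f] [IsDominant f]
    (hnorm : ∀ V : Y.Opens, IsAffineOpen V → IsIntegrallyClosed Γ(Y, V))
    (𝒱 : Cover Y) (haff : ∀ i, IsAffineOpen (𝒱.W i))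
    (hne : ∀ i, ((𝒱.W i : Y.Opens) : Set Y).Nonempty)
    (g' : Z1 𝒱) (ha : Pic.map f (toPic 𝒱 g') = 1) :
    toPic 𝒱 g' ^ degree f = 1 := by
  obtain ⟨h, hh⟩ := exists_coboundary_of_map_toPic_eq_one f 𝒱 g' ha
  -- the coboundary relation on `X`, in the form used by `NormD43`
  have key : ∀ i j : 𝒱.ι,
      resU X (f.preimage_mono (inf_le_left : 𝒱.W i ⊓ 𝒱.W j ≤ 𝒱.W i)) (h i)⁻¹ =
        appU f (𝒱.W i ⊓ 𝒱.W j) (g'.1 i j) *
          resU X (f.preimage_mono (inf_le_right : 𝒱.W i ⊓ 𝒱.W j ≤ 𝒱.W j)) (h j)⁻¹ := by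
    intro i j
    rw [hh i j, map_inv, map_inv]
    exact (mul_inv_cancel_comm _ _).symm
  obtain ⟨b, hb⟩ := exists_units_pow_degree f hnorm 𝒱.W haff hne
    (fun i j => ((g'.1 i j : (Γ(Y, 𝒱.W i ⊓ 𝒱.W j))ˣ) : Γ(Y, 𝒱.W i ⊓ 𝒱.W j))) (fun i => (h i)⁻¹)
    (fun i j => congrArg Units.val (key i j))
  -- the coboundary relation on `Y`, on units
  have hbU : ∀ i j : 𝒱.ι, resU Y (inf_le_left : 𝒱.W i ⊓ 𝒱.W j ≤ 𝒱.W i) (b i) =
      (g'.1 i j) ^ degree f * resU Y (inf_le_right : 𝒱.W i ⊓ 𝒱.W j ≤ 𝒱.W j) (b j) := by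
    intro i j
    apply Units.ext
    rw [Units.val_mul, Units.val_pow_eq_pow_val]
    exact hb i j
  rw [← map_pow, toPic_eq_one_iff]
  refine ⟨fun i => (b i)⁻¹, fun i j => ?_⟩
  have h2 : (g' ^ degree f).1 i j = (g'.1 i j) ^ degree f := rfl
  rw [h2, map_inv, map_inv, inv_inv, hbU i j, mul_comm, mul_assoc, mul_inv_cancel, mul_one]

/-- **Lemma D on Picard groups (NORM-STEP).**  `f : X ⟶ Y` universally closed and dominant, `X`, `Y`
integral, `Y` normal: a class of `Pic Y` which becomes trivial on `X` is killed by `degree f`. -/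
theorem pow_degree_eq_one_of_map_eq_one (f : X ⟶ Y) [IsIntegral X] [IsIntegral Y]
    [UniversallyClosed f] [IsDominant f]
    (hnorm : ∀ V : Y.Opens, IsAffineOpen V → IsIntegrallyClosed Γ(Y, V))
    (a : Pic Y) (ha : Pic.map f a = 1) : a ^ degree f = 1 := by
  obtain ⟨𝒲, g, hg⟩ := exists_toPic_eq a
  obtain ⟨𝒱, ρ, hρ, haff, hne⟩ := exists_affine_refinement 𝒲
  have hgg' : toPic 𝒱 (refine ρ hρ g) = a := (toPic_refine ρ hρ g).trans hg
  have ha' : Pic.map f (toPic 𝒱 (refine ρ hρ g)) = 1 := by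
    rw [hgg']; exact ha
  have := toPic_pow_degree_eq_one f hnorm 𝒱 haff hne (refine ρ hρ g) ha'
  rw [hgg'] at this
  exact this

/-- The kernel of `Pic.map f` is killed by `degree f`. -/
theorem ker_map_le_pow_degree (f : X ⟶ Y) [IsIntegral X] [IsIntegral Y]
    [UniversallyClosed f] [IsDominant f]
    (hnorm : ∀ V : Y.Opens, IsAffineOpen V → IsIntegrallyClosed Γ(Y, V)) :
    ∀ a ∈ (Pic.map f).ker, a ^ degree f = 1 :=
  fun a ha => pow_degree_eq_one_of_map_eq_one f hnorm a ((Pic.map f).mem_ker.mp ha)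

end Fermat.Agent.AV.NormPic62
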