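import Fermat.Agent.AV.PSReg98Shear

/-!
# FACT-i (b) (helper98): the regularising automorphism

`K` an infinite field, `0 ≠ f ∈ K⟦x_0..x_n⟧`. There is a ring automorphism `φ` of the power series
ring (a shear `x_{i+1} ↦ x_{i+1} + a_i x_0`) such that `φ f` is regular in `x_0`: some coefficient
of a pure power `x_0 ^ d` is nonzero. In the language of Weierstrass preparation
(`A = K⟦x_1..x_n⟧`, `A⟦X⟧ ≃ K⟦x_0..x_n⟧` via `MvPowerSeries.finSuccEquiv`): the image of `φ f` in
`(A / m_A)⟦X⟧` is nonzero.
-/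

namespace Fermat.Agent.AV.PSReg98

open MvPolynomial

variable {K : Type*} [Field K] {n : ℕ}

/-- Evaluating a shear at `(1,0,..,0)` is evaluating at `(1,a)`. -/
lemma eval_shear (a : Fin n → K) (h : MvPolynomial (Fin (n + 1)) K) :
    eval (Fin.cons 1 0 : Fin (n + 1) → K) (shear a h) =
      eval (Fin.cons 1 a : Fin (n + 1) → K) h := by
  change eval₂Hom (RingHom.id K) _ (bind₁ (shearVars a) h) = _
  rw [eval₂Hom_bind₁]
  change eval (fun i => eval (Fin.cons 1 0 : Fin (n + 1) → K) (shearVars a i)) h = _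
  have hpt : (fun i => eval (Fin.cons 1 0 : Fin (n + 1) → K) (shearVars a i)) =
      (Fin.cons 1 a : Fin (n + 1) → K) := by
    funext j
    refine Fin.cases ?_ (fun i => ?_) j
    · simp [shearVars]
    · simp [shearVars]
  rw [hpt]

/-- Scaling the evaluation point of a homogeneous polynomial. -/
lemma eval_mul_of_isHomogeneous {σ : Type*} [Fintype σ] {h : MvPolynomial σ K} {d : ℕ}
    (hh : h.IsHomogeneous d) (c : K) (p : σ → K) :
    eval (fun j => c * p j) h = c ^ d * eval p h := by
  rw [eval_eq', eval_eq', Finset.mul_sum]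
  refine Finset.sum_congr rfl fun m hm => ?_
  have hdeg : ∑ j, m j = d := by
    rw [← Finsupp.degree_eq_sum]
    by_contra hne
    exact (mem_support_iff.mp hm) (hh.coeff_eq_zero hne)
  simp only [mul_pow, Finset.prod_mul_distrib, Finset.prod_pow_eq_pow_sum, hdeg]
  ring

/-- A nonzero homogeneous polynomial over an infinite field does not vanish identically on the
affine chart `x_0 = 1`. -/
lemma exists_eval_cons_one_ne_zero [Infinite K] {h : MvPolynomial (Fin (n + 1)) K} {d : ℕ}
    (hh : h.IsHomogeneous d) (h0 : h ≠ 0) :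
    ∃ a : Fin n → K, eval (Fin.cons 1 a : Fin (n + 1) → K) h ≠ 0 := by
  by_contra hcon
  push Not at hcon
  apply h0
  have hX : (X 0 * h : MvPolynomial (Fin (n + 1)) K) = 0 := by
    refine ((isHomogeneous_X K (0 : Fin (n + 1))).mul hh).eq_zero_of_forall_eval_eq_zero
      fun r => ?_
    rw [map_mul, eval_X]
    by_cases hr : r 0 = 0
    · rw [hr, zero_mul]
    · have hrr : r = fun j => r 0 * (Fin.cons 1 (fun i => r i.succ / r 0) : Fin (n + 1) → K) j := by
        funext j
        refine Fin.cases ?_ (fun i => ?_) j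
        · simp
        · simp only [Fin.cons_succ]
          field_simp
      rw [hrr, eval_mul_of_isHomogeneous hh, hcon, mul_zero, mul_zero]
  exact (mul_eq_zero.mp hX).resolve_left (X_ne_zero 0)

/-- If a polynomial does not vanish at `(1,0,..,0)`, then some pure power of `x_0` occurs in it. -/
lemma exists_coeff_single_ne_zero_of_eval_ne_zero {q : MvPolynomial (Fin (n + 1)) K}
    (hq : eval (Fin.cons 1 0 : Fin (n + 1) → K) q ≠ 0) :
    ∃ e : ℕ, coeff (Finsupp.single 0 e) q ≠ 0 := by
  rw [eval_eq'] at hq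
  obtain ⟨m, hm, hne⟩ := Finset.exists_ne_zero_of_sum_ne_zero hq
  have h1 : coeff m q ≠ 0 := left_ne_zero_of_mul hne
  have h2 : ∏ i, (Fin.cons 1 0 : Fin (n + 1) → K) i ^ m i ≠ 0 := right_ne_zero_of_mul hne
  have h3 : ∀ i : Fin n, m i.succ = 0 := by
    intro i
    by_contra hmi
    apply h2
    refine Finset.prod_eq_zero (Finset.mem_univ i.succ) ?_
    simp [hmi]
  refine ⟨m 0, ?_⟩
  have hm' : m = Finsupp.single 0 (m 0) := by
    ext j
    refine Fin.cases ?_ (fun i => ?_) j
    · simp
    · rw [h3 i, Finsupp.single_apply, if_neg (Fin.succ_ne_zero i).symm]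
  rw [← hm']
  exact h1

/-- The lowest-degree part of a nonzero power series. -/
lemma exists_homogeneous_truncTotal {f : MvPowerSeries (Fin (n + 1)) K} (hf : f ≠ 0) :
    ∃ d : ℕ, (MvPowerSeries.truncTotal (d + 1) f).IsHomogeneous d ∧
      MvPowerSeries.truncTotal (d + 1) f ≠ 0 := by
  classical
  have hex : ∃ d : ℕ, ∃ x : Fin (n + 1) →₀ ℕ, x.degree = d ∧ MvPowerSeries.coeff x f ≠ 0 := by
    by_contra hcon
    push Not at hcon
    apply hf
    ext x
    simpa using hcon _ x rfl
  refine ⟨Nat.find hex, ?_, ?_⟩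
  · intro x hx
    rw [MvPowerSeries.coeff_truncTotal_eq_ite] at hx
    split_ifs at hx with hlt
    · have hle : Nat.find hex ≤ x.degree := Nat.find_min' hex ⟨x, rfl, hx⟩
      have : x.degree = Nat.find hex := by omega
      change (Finsupp.weight (fun _ => 1)) x = _
      rw [← Finsupp.degree_eq_weight_one]
      exact this
    · exact absurd rfl hx
  · obtain ⟨x, hxd, hx⟩ := Nat.find_spec hex
    intro h0
    apply hx
    have := congrArg (MvPolynomial.coeff x) h0
    rwa [MvPowerSeries.coeff_truncTotal _ (by omega), MvPolynomial.coeff_zero] at this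

/-- **(REG), coefficient form.** -/
theorem exists_ringEquiv_coeff_ne_zero (K : Type*) [Field K] [Infinite K] (n : ℕ)
    (f : MvPowerSeries (Fin (n + 1)) K) (hf : f ≠ 0) :
    ∃ (φ : MvPowerSeries (Fin (n + 1)) K ≃+* MvPowerSeries (Fin (n + 1)) K) (d : ℕ),
      MvPowerSeries.coeff (Finsupp.single 0 d) (φ f) ≠ 0 := by
  obtain ⟨d, hh, h0⟩ := exists_homogeneous_truncTotal hf
  obtain ⟨a, ha⟩ := exists_eval_cons_one_ne_zero hh h0
  rw [← eval_shear] at ha
  obtain ⟨e, he⟩ := exists_coeff_single_ne_zero_of_eval_ne_zero ha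
  have hhom : (shear a (MvPowerSeries.truncTotal (d + 1) f)).IsHomogeneous (1 * d) := by
    refine hh.aeval _ fun j => ?_
    refine Fin.cases ?_ (fun i => ?_) j
    · exact isHomogeneous_X K 0
    · exact (isHomogeneous_X K i.succ).add (isHomogeneous_C_mul_X (a i) 0)
  have hed : e = d := by
    by_contra hne
    apply he
    refine hhom.coeff_eq_zero ?_
    simpa using hne
  subst hed
  refine ⟨shearPS a, e, ?_⟩
  rw [coeff_shearPS a f (k := e + 1) (by simp)]
  exact he


/-- A coefficient of a pure power of `x_0` survives in `(A / m_A)⟦X⟧`. -/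
lemma map_residue_finSuccEquiv_ne_zero {p : MvPowerSeries (Fin (n + 1)) K} {d : ℕ}
    (hp : MvPowerSeries.coeff (Finsupp.single 0 d) p ≠ 0) :
    PowerSeries.map (IsLocalRing.residue (MvPowerSeries (Fin n) K))
      (MvPowerSeries.finSuccEquiv K n p) ≠ 0 := by
  intro h0
  apply hp
  have h1 := congrArg (PowerSeries.coeff d) h0
  rw [PowerSeries.coeff_map, map_zero, IsLocalRing.residue_eq_zero_iff,
    IsLocalRing.mem_maximalIdeal, mem_nonunits_iff, MvPowerSeries.isUnit_iff_constantCoeff,
    isUnit_iff_ne_zero, not_not] at h1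
  rw [← MvPowerSeries.coeff_zero_eq_constantCoeff_apply,
    MvPowerSeries.coeff_coeff_finSuccEquiv] at h1
  have hc : (Finsupp.cons d (0 : Fin n →₀ ℕ)) = Finsupp.single 0 d := by
    ext j
    refine Fin.cases ?_ (fun i => ?_) j
    · simp
    · simp
  rwa [hc] at h1

/-- **(REG), in the form needed by Mathlib's Weierstrass preparation theorem**
(`PowerSeries.exists_isWeierstrassFactorization`) for `A = MvPowerSeries (Fin n) K`. -/
theorem exists_ringEquiv_regular (K : Type*) [Field K] [Infinite K] (n : ℕ)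
    (f : MvPowerSeries (Fin (n + 1)) K) (hf : f ≠ 0) :
    ∃ φ : MvPowerSeries (Fin (n + 1)) K ≃+* MvPowerSeries (Fin (n + 1)) K,
      PowerSeries.map (IsLocalRing.residue (MvPowerSeries (Fin n) K))
        (MvPowerSeries.finSuccEquiv K n (φ f)) ≠ 0 := by
  obtain ⟨φ, d, hd⟩ := exists_ringEquiv_coeff_ne_zero K n f hf
  exact ⟨φ, map_residue_finSuccEquiv_ne_zero hd⟩

end Fermat.Agent.AV.PSReg98
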