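import Fermat.Agent.AV.SmoothCompl98Equiv

/-!
# FACT-i (b), part 1 (helper98): the shear automorphisms of `K⟦x_0..x_n⟧`

For `a : Fin n → K` the linear change of variables `x_0 ↦ x_0`, `x_{i+1} ↦ x_{i+1} + a_i x_0` of
`K[x_0..x_n]` preserves the powers of the ideal of variables, hence induces a ring automorphism of
`AdicCompletion (x) K[x] ≃ MvPowerSeries (Fin (n+1)) K`.
-/

namespace Fermat.Agent.AV.PSReg98

open MvPolynomial

variable {K : Type*} [CommRing K] {n : ℕ}

/-- Images of the variables under the shear. -/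
noncomputable def shearVars (a : Fin n → K) : Fin (n + 1) → MvPolynomial (Fin (n + 1)) K :=
  Fin.cases (X 0) (fun i => X i.succ + C (a i) * X 0)

/-- The shear `x_0 ↦ x_0`, `x_{i+1} ↦ x_{i+1} + a_i x_0` on polynomials. -/
noncomputable def shear (a : Fin n → K) :
    MvPolynomial (Fin (n + 1)) K →ₐ[K] MvPolynomial (Fin (n + 1)) K :=
  bind₁ (shearVars a)

@[simp] lemma shear_X_zero (a : Fin n → K) : shear a (X 0) = X 0 := by
  simp [shear, shearVars]

@[simp] lemma shear_X_succ (a : Fin n → K) (i : Fin n) :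
    shear a (X i.succ) = X i.succ + C (a i) * X 0 := by
  simp [shear, shearVars]

lemma shear_comp (a b : Fin n → K) : (shear b).comp (shear a) = shear (a + b) := by
  refine MvPolynomial.algHom_ext fun j => ?_
  refine Fin.cases ?_ (fun i => ?_) j
  · simp
  · simp only [AlgHom.comp_apply, shear_X_succ, map_add, map_mul, shear_X_zero, Pi.add_apply]
    rw [show shear b (C (a i)) = C (a i) from (shear b).commutes (a i)]
    simp only [add_mul]
    ring

lemma shear_zero : shear (0 : Fin n → K) = AlgHom.id K _ := by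
  refine MvPolynomial.algHom_ext fun j => ?_
  refine Fin.cases ?_ (fun i => ?_) j
  · simp
  · simp

lemma shear_shear (a b : Fin n → K) (p : MvPolynomial (Fin (n + 1)) K) :
    shear b (shear a p) = shear (a + b) p := by
  rw [← shear_comp]; rfl

lemma shear_mem_idealOfVars (a : Fin n → K) (j : Fin (n + 1)) :
    shear a (X j) ∈ idealOfVars (Fin (n + 1)) K := by
  have hX : ∀ i, (X i : MvPolynomial (Fin (n + 1)) K) ∈ idealOfVars (Fin (n + 1)) K := fun i =>
    Ideal.subset_span ⟨i, rfl⟩
  refine Fin.cases ?_ (fun i => ?_) j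
  · rw [shear_X_zero]; exact hX 0
  · rw [shear_X_succ]
    exact Ideal.add_mem _ (hX _) (Ideal.mul_mem_left _ _ (hX 0))

lemma pow_idealOfVars_le_comap_shear (a : Fin n → K) (k : ℕ) :
    idealOfVars (Fin (n + 1)) K ^ k ≤ (idealOfVars (Fin (n + 1)) K ^ k).comap (shear a) := by
  rw [← Ideal.map_le_iff_le_comap, Ideal.map_pow]
  refine Ideal.pow_right_mono ?_ k
  rw [idealOfVars, Ideal.map_span, Ideal.span_le]
  rintro _ ⟨_, ⟨j, rfl⟩, rfl⟩
  exact shear_mem_idealOfVars a j

/-- The shear on the truncations `K[x] / (x)^k`. -/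
noncomputable def shearQuot (a : Fin n → K) (k : ℕ) :
    (MvPolynomial (Fin (n + 1)) K ⧸ idealOfVars (Fin (n + 1)) K ^ k) →+*
      (MvPolynomial (Fin (n + 1)) K ⧸ idealOfVars (Fin (n + 1)) K ^ k) :=
  Ideal.quotientMap _ (shear a : _ →+* _) (pow_idealOfVars_le_comap_shear a k)

@[simp] lemma shearQuot_mk (a : Fin n → K) (k : ℕ) (p : MvPolynomial (Fin (n + 1)) K) :
    shearQuot a k (Ideal.Quotient.mk _ p) = Ideal.Quotient.mk _ (shear a p) := rfl

lemma shearQuot_compat (a : Fin n → K) {m k : ℕ} (h : m ≤ k)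
    (x : MvPolynomial (Fin (n + 1)) K ⧸ idealOfVars (Fin (n + 1)) K ^ k) :
    Ideal.Quotient.factorPow (idealOfVars (Fin (n + 1)) K) h (shearQuot a k x) =
      shearQuot a m (Ideal.Quotient.factorPow (idealOfVars (Fin (n + 1)) K) h x) := by
  obtain ⟨p, rfl⟩ := Ideal.Quotient.mk_surjective x
  rfl

/-- The shear on the completion of the polynomial ring. -/
noncomputable def shearCompl (a : Fin n → K) :
    AdicCompletion (idealOfVars (Fin (n + 1)) K) (MvPolynomial (Fin (n + 1)) K) →+*
      AdicCompletion (idealOfVars (Fin (n + 1)) K) (MvPolynomial (Fin (n + 1)) K) :=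
  SmoothCompl98.completionMap _ _ (shearQuot a) (fun {_ _} h x => shearQuot_compat a h x)

@[simp] lemma evalₐ_shearCompl (a : Fin n → K) (k : ℕ)
    (x : AdicCompletion (idealOfVars (Fin (n + 1)) K) (MvPolynomial (Fin (n + 1)) K)) :
    AdicCompletion.evalₐ _ k (shearCompl a x) = shearQuot a k (AdicCompletion.evalₐ _ k x) :=
  SmoothCompl98.evalₐ_completionMap _ _ _ _ k x

lemma shearCompl_shearCompl (a b : Fin n → K)
    (x : AdicCompletion (idealOfVars (Fin (n + 1)) K) (MvPolynomial (Fin (n + 1)) K)) :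
    shearCompl b (shearCompl a x) = shearCompl (a + b) x := by
  refine AdicCompletion.ext_evalₐ fun k => ?_
  rw [evalₐ_shearCompl, evalₐ_shearCompl, evalₐ_shearCompl]
  obtain ⟨p, hp⟩ := Ideal.Quotient.mk_surjective (AdicCompletion.evalₐ _ k x)
  rw [← hp, shearQuot_mk, shearQuot_mk, shearQuot_mk, shear_shear]

lemma shearCompl_zero
    (x : AdicCompletion (idealOfVars (Fin (n + 1)) K) (MvPolynomial (Fin (n + 1)) K)) :
    shearCompl (0 : Fin n → K) x = x := by
  refine AdicCompletion.ext_evalₐ fun k => ?_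
  rw [evalₐ_shearCompl]
  obtain ⟨p, hp⟩ := Ideal.Quotient.mk_surjective (AdicCompletion.evalₐ _ k x)
  rw [← hp, shearQuot_mk, shear_zero]
  rfl

/-- The shear as a ring automorphism of the completion. -/
noncomputable def shearComplEquiv (a : Fin n → K) :
    AdicCompletion (idealOfVars (Fin (n + 1)) K) (MvPolynomial (Fin (n + 1)) K) ≃+*
      AdicCompletion (idealOfVars (Fin (n + 1)) K) (MvPolynomial (Fin (n + 1)) K) :=
  RingEquiv.ofRingHom (shearCompl a) (shearCompl (-a))
    (RingHom.ext fun x => by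
      rw [RingHom.comp_apply, shearCompl_shearCompl, neg_add_cancel, shearCompl_zero]; rfl)
    (RingHom.ext fun x => by
      rw [RingHom.comp_apply, shearCompl_shearCompl, add_neg_cancel, shearCompl_zero]; rfl)

/-- **The shear automorphism of the power series ring.** -/
noncomputable def shearPS (a : Fin n → K) :
    MvPowerSeries (Fin (n + 1)) K ≃+* MvPowerSeries (Fin (n + 1)) K :=
  (MvPowerSeries.toAdicCompletionAlgEquiv (Fin (n + 1)) K).toRingEquiv.trans
    ((shearComplEquiv a).trans
      (MvPowerSeries.toAdicCompletionAlgEquiv (Fin (n + 1)) K).symm.toRingEquiv)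

/-- Truncations of `shearPS a F` are computed by the polynomial shear. -/
lemma mk_truncTotal_shearPS (a : Fin n → K) (k : ℕ) (F : MvPowerSeries (Fin (n + 1)) K) :
    Ideal.Quotient.mk (idealOfVars (Fin (n + 1)) K ^ k)
        (MvPowerSeries.truncTotal k (shearPS a F)) =
      Ideal.Quotient.mk (idealOfVars (Fin (n + 1)) K ^ k)
        (shear a (MvPowerSeries.truncTotal k F)) := by
  have h1 : ∀ G : MvPowerSeries (Fin (n + 1)) K,
      AdicCompletion.evalₐ _ k (MvPowerSeries.toAdicCompletion (Fin (n + 1)) K G) =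
        Ideal.Quotient.mk (idealOfVars (Fin (n + 1)) K ^ k) (MvPowerSeries.truncTotal k G) := by
    intro G
    simp only [MvPowerSeries.toAdicCompletion]
    rfl
  have h2 : MvPowerSeries.toAdicCompletion (Fin (n + 1)) K (shearPS a F) =
      shearCompl a (MvPowerSeries.toAdicCompletion (Fin (n + 1)) K F) := by
    have := (MvPowerSeries.toAdicCompletionAlgEquiv (Fin (n + 1)) K).apply_symm_apply
      (shearCompl a (MvPowerSeries.toAdicCompletion (Fin (n + 1)) K F))
    exact this
  rw [← h1, h2, evalₐ_shearCompl, h1, shearQuot_mk]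

/-- Coefficients of `shearPS a F` in degree `< k` are computed by the polynomial shear applied to
the truncation of `F`. -/
lemma coeff_shearPS (a : Fin n → K) {k : ℕ} (F : MvPowerSeries (Fin (n + 1)) K)
    {x : Fin (n + 1) →₀ ℕ} (hx : x.degree < k) :
    MvPowerSeries.coeff x (shearPS a F) =
      MvPolynomial.coeff x (shear a (MvPowerSeries.truncTotal k F)) := by
  have h := mk_truncTotal_shearPS a k F
  rw [Ideal.Quotient.eq, MvPolynomial.mem_pow_idealOfVars_iff'] at h
  have h' := h x hx
  rw [MvPolynomial.coeff_sub, sub_eq_zero, MvPowerSeries.coeff_truncTotal _ hx] at h'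
  exact h'

end Fermat.Agent.AV.PSReg98
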