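import Mathlib

/-!
# FACT-iii, assembly (helper98): compatible isomorphisms of the truncations `A / I ^ k ≃ B / J ^ k`
induce a ring isomorphism of adic completions.
-/

namespace Fermat.Agent.AV.SmoothCompl98

open Ideal Quotient

variable {A B : Type*} [CommRing A] [CommRing B]

/-- The transition maps are compatible with `evalₐ`. -/
lemma factorPow_evalₐ (I : Ideal A) {m n : ℕ} (h : m ≤ n) (x : AdicCompletion I A) :
    Ideal.Quotient.factorPow I h (AdicCompletion.evalₐ I n x) = AdicCompletion.evalₐ I m x := by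
  induction x using AdicCompletion.induction_on with
  | _ x =>
    rw [AdicCompletion.evalₐ_mk, AdicCompletion.evalₐ_mk]
    change Ideal.Quotient.mk (I ^ m) (x.val n) = _
    exact AdicCompletion.Ideal.mk_eq_mk I h x

lemma completionMap_compat (I : Ideal A) (J : Ideal B)
    (f : ∀ k : ℕ, (A ⧸ I ^ k) →+* (B ⧸ J ^ k))
    (hf : ∀ {m n : ℕ} (h : m ≤ n) (x : A ⧸ I ^ n),
      Ideal.Quotient.factorPow J h (f n x) = f m (Ideal.Quotient.factorPow I h x))
    {m n : ℕ} (h : m ≤ n) :
    (Ideal.Quotient.factorPow J h).comp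
      ((f n).comp (AdicCompletion.evalₐ I n : AdicCompletion I A →+* A ⧸ I ^ n)) =
      (f m).comp (AdicCompletion.evalₐ I m : AdicCompletion I A →+* A ⧸ I ^ m) := by
  ext x
  simp only [RingHom.coe_comp, RingHom.coe_coe, Function.comp_apply]
  rw [hf h, factorPow_evalₐ]

/-- A compatible family of ring homs between truncations induces a ring hom of completions. -/
noncomputable def completionMap (I : Ideal A) (J : Ideal B)
    (f : ∀ k : ℕ, (A ⧸ I ^ k) →+* (B ⧸ J ^ k))
    (hf : ∀ {m n : ℕ} (h : m ≤ n) (x : A ⧸ I ^ n),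
      Ideal.Quotient.factorPow J h (f n x) = f m (Ideal.Quotient.factorPow I h x)) :
    AdicCompletion I A →+* AdicCompletion J B :=
  AdicCompletion.liftRingHom J
    (fun k => (f k).comp (AdicCompletion.evalₐ I k : AdicCompletion I A →+* A ⧸ I ^ k))
    (fun {_ _} h => completionMap_compat I J f hf h)

@[simp] lemma evalₐ_completionMap (I : Ideal A) (J : Ideal B)
    (f : ∀ k : ℕ, (A ⧸ I ^ k) →+* (B ⧸ J ^ k))
    (hf : ∀ {m n : ℕ} (h : m ≤ n) (x : A ⧸ I ^ n),
      Ideal.Quotient.factorPow J h (f n x) = f m (Ideal.Quotient.factorPow I h x))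
    (k : ℕ) (x : AdicCompletion I A) :
    AdicCompletion.evalₐ J k (completionMap I J f hf x) = f k (AdicCompletion.evalₐ I k x) :=
  AdicCompletion.evalₐ_liftRingHom J _ (fun {_ _} h => completionMap_compat I J f hf h) k x

/-- Compatible ring isomorphisms of truncations induce a ring isomorphism of completions. -/
noncomputable def completionEquiv (I : Ideal A) (J : Ideal B)
    (e : ∀ k : ℕ, (A ⧸ I ^ k) ≃+* (B ⧸ J ^ k))
    (he : ∀ {m n : ℕ} (h : m ≤ n) (x : A ⧸ I ^ n),
      Ideal.Quotient.factorPow J h (e n x) = e m (Ideal.Quotient.factorPow I h x)) :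
    AdicCompletion I A ≃+* AdicCompletion J B :=
  RingEquiv.ofRingHom
    (completionMap I J (fun k => (e k).toRingHom) (fun {m n} h x => he h x))
    (completionMap J I (fun k => (e k).symm.toRingHom) (fun {m n} h x => by
      apply (e m).injective
      simp only [RingEquiv.toRingHom_eq_coe, RingHom.coe_coe, RingEquiv.apply_symm_apply]
      rw [← he h, RingEquiv.apply_symm_apply]))
    (by
      refine RingHom.ext fun x => ?_
      refine AdicCompletion.ext_evalₐ fun k => ?_
      rw [RingHom.comp_apply, evalₐ_completionMap, evalₐ_completionMap]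
      simp)
    (by
      refine RingHom.ext fun x => ?_
      refine AdicCompletion.ext_evalₐ fun k => ?_
      rw [RingHom.comp_apply, evalₐ_completionMap, evalₐ_completionMap]
      simp)

end Fermat.Agent.AV.SmoothCompl98
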