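import Fermat.Agent.AV.SmoothCompl98Core
import Fermat.Agent.AV.SmoothCompl98Equiv

/-!
# FACT-iii (helper98): the completion of a formally smooth local `K`-algebra with residue field `K`
is a power series ring.
-/

namespace Fermat.Agent.AV.SmoothCompl98

open IsLocalRing MvPolynomial

section Equiv

variable {K R : Type*} [Field K] [CommRing R] [Algebra K R] [IsLocalRing R]
variable {g : ℕ} {t : Fin g → R} [Algebra.FormallySmooth K R]

/-- The ring isomorphism of truncations `P / I ^ k ≃ R / m ^ k`. -/
noncomputable def IsCoords.quotEquiv (ht : IsCoords K t) (k : ℕ) :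
    (MvPolynomial (Fin g) K ⧸ idealOfVars (Fin g) K ^ k) ≃+* (R ⧸ maximalIdeal R ^ k) :=
  RingEquiv.ofBijective (ht.quotMap k : _ →+* _) (ht.quotMap_bijective k)

lemma IsCoords.quotEquiv_compat (ht : IsCoords K t) {m n : ℕ} (h : m ≤ n)
    (x : MvPolynomial (Fin g) K ⧸ idealOfVars (Fin g) K ^ n) :
    Ideal.Quotient.factorPow (maximalIdeal R) h (ht.quotEquiv n x) =
      ht.quotEquiv m (Ideal.Quotient.factorPow (idealOfVars (Fin g) K) h x) := by
  obtain ⟨p, rfl⟩ := Ideal.Quotient.mk_surjective x
  rfl

/-- `AdicCompletion I P ≃+* AdicCompletion m R`. -/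
noncomputable def IsCoords.completionEquivPoly (ht : IsCoords K t) :
    AdicCompletion (idealOfVars (Fin g) K) (MvPolynomial (Fin g) K) ≃+*
      AdicCompletion (maximalIdeal R) R :=
  completionEquiv _ _ ht.quotEquiv (fun {_ _} h x => ht.quotEquiv_compat h x)

/-- **FACT-iii**, with explicit coordinates. -/
noncomputable def IsCoords.completionEquiv (ht : IsCoords K t) :
    AdicCompletion (maximalIdeal R) R ≃+* MvPowerSeries (Fin g) K :=
  ht.completionEquivPoly.symm.trans
    (MvPowerSeries.toAdicCompletionAlgEquiv (Fin g) K).symm.toRingEquiv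

end Equiv

section Exists

variable (K R : Type*) [Field K] [CommRing R] [Algebra K R] [IsLocalRing R] [IsNoetherianRing R]

/-- Coordinates exist for a noetherian local `K`-algebra with residue field `K`. -/
theorem exists_isCoords (hres : Function.Surjective (algebraMap K (ResidueField R))) :
    ∃ (g : ℕ) (t : Fin g → R), IsCoords K t := by
  classical
  let κ := ResidueField R
  let V := CotangentSpace R
  let g := Module.finrank κ V
  let b : Module.Basis (Fin g) κ V := Module.finBasis κ V
  choose tm htm using fun i => (maximalIdeal R).toCotangent_surjective (b i)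
  refine ⟨g, fun i => (tm i : R), ?_, ?_, ?_⟩
  · -- span
    have h1 : Submodule.span κ ((maximalIdeal R).toCotangent '' Set.range tm) = ⊤ := by
      rw [← Set.range_comp]
      have : (maximalIdeal R).toCotangent ∘ tm = b := funext htm
      rw [this]
      exact b.span_eq
    have h2 : Submodule.span R (Set.range tm) = ⊤ :=
      CotangentSpace.span_image_eq_top_iff.mp h1
    have h3 := congrArg (Submodule.map (maximalIdeal R).subtype) h2
    rw [Submodule.map_span, Submodule.map_top, Submodule.range_subtype, ← Set.range_comp] at h3
    exact h3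
  · -- residue field
    intro r
    obtain ⟨a, ha⟩ := hres (residue R r)
    refine ⟨a, ?_⟩
    rw [← residue_eq_zero_iff, map_sub, sub_eq_zero, ← ha]
    rfl
  · -- independence
    intro v hv
    let x : maximalIdeal R := ∑ i, algebraMap K R (v i) • tm i
    have hx : (x : R) = ∑ i, algebraMap K R (v i) * (tm i : R) := by
      simp only [x, Submodule.coe_sum, Submodule.coe_smul, smul_eq_mul]
    have hx0 : (maximalIdeal R).toCotangent x = 0 := by
      rw [Ideal.toCotangent_eq_zero, hx]; exact hv
    have hsum : ∑ i, (residue R (algebraMap K R (v i))) • b i = 0 := by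
      rw [← hx0]
      simp only [x, map_sum, map_smul, htm]
      refine Finset.sum_congr rfl fun i _ => ?_
      exact (algebraMap_smul κ (algebraMap K R (v i)) (b i))
    have hli := Fintype.linearIndependent_iff.mp b.linearIndependent _ hsum
    funext i
    have := hli i
    exact eq_zero_of_algebraMap_mem_maximalIdeal ((residue_eq_zero_iff _).mp this)

end Exists

/-- **FACT-iii** (ring level): the completion of a noetherian local `K`-algebra `R` with residue
field `K` which is formally smooth over `K` is a power series ring over `K`. -/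
theorem exists_ringEquiv_mvPowerSeries (K R : Type*) [Field K] [CommRing R] [Algebra K R]
    [IsLocalRing R] [IsNoetherianRing R] [Algebra.FormallySmooth K R]
    (hres : Function.Surjective (algebraMap K (ResidueField R))) :
    ∃ g : ℕ, Nonempty (AdicCompletion (maximalIdeal R) R ≃+* MvPowerSeries (Fin g) K) := by
  obtain ⟨g, t, ht⟩ := exists_isCoords K R hres
  exact ⟨g, ⟨ht.completionEquiv⟩⟩

end Fermat.Agent.AV.SmoothCompl98
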