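import Mathlib

/-!
# FACT-iii, algebraic core (helper98)

`K` a field, `R` a local `K`-algebra, `t : Fin g → R` "coordinates" at the closed point:
they span the maximal ideal, `R = K + m`, and they are `K`-linearly independent modulo `m ^ 2`.
With `P = K[x_1..x_g]`, `I = (x_1..x_g)` and `θ : P → R`, `x_i ↦ t_i`, we show that
`P / I ^ k → R / m ^ k` is bijective for all `k` as soon as `R` is formally smooth over `K`.
-/

namespace Fermat.Agent.AV.SmoothCompl98

open IsLocalRing MvPolynomial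

variable {K R : Type*} [Field K] [CommRing R] [Algebra K R] [IsLocalRing R]
variable {g : ℕ}

/-- Coordinates at the closed point of a local `K`-algebra. -/
structure IsCoords (K : Type*) {R : Type*} [Field K] [CommRing R] [Algebra K R] [IsLocalRing R]
    {g : ℕ} (t : Fin g → R) : Prop where
  span_eq : Ideal.span (Set.range t) = maximalIdeal R
  resid : ∀ r : R, ∃ a : K, r - algebraMap K R a ∈ maximalIdeal R
  indep : ∀ v : Fin g → K,
    (∑ i, algebraMap K R (v i) * t i) ∈ maximalIdeal R ^ 2 → v = 0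

/-- The coordinate map `K[x_1..x_g] → R`. -/
noncomputable def theta (K : Type*) {R : Type*} [Field K] [CommRing R] [Algebra K R] {g : ℕ}
    (t : Fin g → R) : MvPolynomial (Fin g) K →ₐ[K] R :=
  MvPolynomial.aeval t

omit [IsLocalRing R] in
@[simp] lemma theta_X (t : Fin g → R) (i : Fin g) : theta K t (X i) = t i := by
  simp [theta]

omit [IsLocalRing R] in
@[simp] lemma theta_C (t : Fin g → R) (a : K) : theta K t (C a) = algebraMap K R a := by
  simp [theta]

variable {t : Fin g → R}

lemma IsCoords.map_idealOfVars (ht : IsCoords K t) :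
    Ideal.map (theta K t) (idealOfVars (Fin g) K) = maximalIdeal R := by
  rw [idealOfVars, Ideal.map_span, ← Set.range_comp, ← ht.span_eq]
  congr 2
  ext i
  simp

lemma IsCoords.map_pow_idealOfVars (ht : IsCoords K t) (k : ℕ) :
    Ideal.map (theta K t) (idealOfVars (Fin g) K ^ k) = maximalIdeal R ^ k := by
  rw [Ideal.map_pow, ht.map_idealOfVars]

lemma IsCoords.pow_le_comap (ht : IsCoords K t) (k : ℕ) :
    idealOfVars (Fin g) K ^ k ≤ (maximalIdeal R ^ k).comap (theta K t) := by
  rw [← Ideal.map_le_iff_le_comap, ht.map_pow_idealOfVars]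

lemma IsCoords.theta_mem_pow (ht : IsCoords K t) {k : ℕ} {p : MvPolynomial (Fin g) K}
    (hp : p ∈ idealOfVars (Fin g) K ^ k) : theta K t p ∈ maximalIdeal R ^ k :=
  ht.pow_le_comap k hp

/-- **Lemma A**: `P → R / m ^ k` is surjective. -/
lemma IsCoords.exists_sub_theta_mem_pow (ht : IsCoords K t) (k : ℕ) (r : R) :
    ∃ p : MvPolynomial (Fin g) K, r - theta K t p ∈ maximalIdeal R ^ k := by
  induction k generalizing r with
  | zero => exact ⟨0, by simp⟩
  | succ k ih =>
    obtain ⟨p, hp⟩ := ih r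
    -- improve `s = r - θ p ∈ m ^ k`
    have key : ∀ s ∈ Ideal.map (theta K t) (idealOfVars (Fin g) K ^ k),
        ∃ q : MvPolynomial (Fin g) K, s - theta K t q ∈ maximalIdeal R ^ (k + 1) := by
      intro s hs
      rw [Ideal.map] at hs
      induction hs using Submodule.span_induction with
      | mem s hs =>
        obtain ⟨q, _, rfl⟩ := hs
        exact ⟨q, by simp⟩
      | zero => exact ⟨0, by simp⟩
      | add s₁ s₂ _ _ h₁ h₂ =>
        obtain ⟨q₁, h₁⟩ := h₁
        obtain ⟨q₂, h₂⟩ := h₂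
        refine ⟨q₁ + q₂, ?_⟩
        have : s₁ + s₂ - theta K t (q₁ + q₂) = (s₁ - theta K t q₁) + (s₂ - theta K t q₂) := by
          rw [map_add]; ring
        rw [this]
        exact Ideal.add_mem _ h₁ h₂
      | smul a s hs h =>
        obtain ⟨q, hq⟩ := h
        obtain ⟨c, hc⟩ := ht.resid a
        have hs' : s ∈ maximalIdeal R ^ k := by
          rw [← ht.map_pow_idealOfVars]; exact hs
        refine ⟨C c * q, ?_⟩
        have : a • s - theta K t (C c * q) =
            (a - algebraMap K R c) * s + algebraMap K R c * (s - theta K t q) := by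
          rw [map_mul, theta_C, smul_eq_mul]; ring
        rw [this, pow_succ']
        refine Ideal.add_mem _ (Ideal.mul_mem_mul hc hs') ?_
        rw [← pow_succ']
        exact Ideal.mul_mem_left _ _ hq
    rw [← ht.map_pow_idealOfVars] at hp
    obtain ⟨q, hq⟩ := key _ hp
    refine ⟨p + q, ?_⟩
    have : r - theta K t (p + q) = (r - theta K t p) - theta K t q := by
      rw [map_add]; ring
    rw [this]
    exact hq


/-- Every polynomial is congruent modulo `I ^ 2` to an affine-linear one. -/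
lemma exists_linear_decomp (p : MvPolynomial (Fin g) K) :
    ∃ (a : K) (v : Fin g → K),
      p - C a - ∑ i, C (v i) * X i ∈ idealOfVars (Fin g) K ^ 2 := by
  induction p using MvPolynomial.induction_on with
  | C a => exact ⟨a, 0, by simp⟩
  | add p q hp hq =>
    obtain ⟨a, v, hp⟩ := hp
    obtain ⟨b, w, hq⟩ := hq
    refine ⟨a + b, v + w, ?_⟩
    have : p + q - C (a + b) - ∑ i, C ((v + w) i) * X i =
        (p - C a - ∑ i, C (v i) * X i) + (q - C b - ∑ i, C (w i) * X i) := by
      simp only [Pi.add_apply, map_add, add_mul, Finset.sum_add_distrib]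
      ring
    rw [this]
    exact Ideal.add_mem _ hp hq
  | mul_X p n hp =>
    obtain ⟨a, v, hp⟩ := hp
    refine ⟨0, Pi.single n a, ?_⟩
    have hX : ∀ i, (X i : MvPolynomial (Fin g) K) ∈ idealOfVars (Fin g) K := fun i =>
      Ideal.subset_span ⟨i, rfl⟩
    have h1 : ∑ i, C ((Pi.single n a : Fin g → K) i) * X i = C a * X n := by
      rw [Finset.sum_eq_single n]
      · simp
      · intro b _ hb
        simp [Pi.single_eq_of_ne hb]
      · simp
    have : p * X n - C 0 - ∑ i, C ((Pi.single n a : Fin g → K) i) * X i =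
        (p - C a - ∑ i, C (v i) * X i) * X n + ∑ i, C (v i) * (X i * X n) := by
      rw [h1, map_zero, sub_zero, sub_mul, sub_mul, Finset.sum_mul]
      simp only [mul_assoc]
      ring
    rw [this]
    refine Ideal.add_mem _ (Ideal.mul_mem_right _ _ hp) (Ideal.sum_mem _ fun i _ => ?_)
    refine Ideal.mul_mem_left _ _ ?_
    rw [pow_two]
    exact Ideal.mul_mem_mul (hX i) (hX n)


lemma eq_zero_of_algebraMap_mem_maximalIdeal {a : K}
    (h : algebraMap K R a ∈ maximalIdeal R) : a = 0 := by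
  by_contra ha
  have hu : IsUnit (algebraMap K R a) := (IsUnit.mk0 a ha).map _
  exact (IsLocalRing.mem_maximalIdeal _).mp h hu

lemma X_mem_idealOfVars (i : Fin g) : (X i : MvPolynomial (Fin g) K) ∈ idealOfVars (Fin g) K :=
  Ideal.subset_span ⟨i, rfl⟩

lemma IsCoords.t_mem (ht : IsCoords K t) (i : Fin g) : t i ∈ maximalIdeal R := by
  rw [← ht.span_eq]; exact Ideal.subset_span ⟨i, rfl⟩

omit [IsLocalRing R] in
lemma theta_linear (t : Fin g → R) (a : K) (v : Fin g → K) (q : MvPolynomial (Fin g) K) :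
    theta K t (C a + ∑ i, C (v i) * X i + q) =
      algebraMap K R a + ∑ i, algebraMap K R (v i) * t i + theta K t q := by
  simp [map_add, map_sum, map_mul]

/-- **Lemma B1**. -/
lemma IsCoords.mem_of_theta_mem (ht : IsCoords K t) {p : MvPolynomial (Fin g) K}
    (hp : theta K t p ∈ maximalIdeal R) : p ∈ idealOfVars (Fin g) K := by
  obtain ⟨a, v, hq⟩ := exists_linear_decomp p
  set q := p - C a - ∑ i, C (v i) * X i with hqdef
  have hpq : p = C a + ∑ i, C (v i) * X i + q := by rw [hqdef]; ring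
  have hθq : theta K t q ∈ maximalIdeal R :=
    Ideal.pow_le_self two_ne_zero (ht.theta_mem_pow hq)
  have hsum : ∑ i, algebraMap K R (v i) * t i ∈ maximalIdeal R :=
    Ideal.sum_mem _ fun i _ => Ideal.mul_mem_left _ _ (ht.t_mem i)
  have ha : algebraMap K R a ∈ maximalIdeal R := by
    have h := hp
    rw [hpq, theta_linear] at h
    have : algebraMap K R a = (algebraMap K R a + ∑ i, algebraMap K R (v i) * t i
        + theta K t q) - ∑ i, algebraMap K R (v i) * t i - theta K t q := by ring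
    rw [this]
    exact Ideal.sub_mem _ (Ideal.sub_mem _ h hsum) hθq
  have ha0 : a = 0 := eq_zero_of_algebraMap_mem_maximalIdeal ha
  rw [hpq, ha0, map_zero, zero_add]
  refine Ideal.add_mem _ (Ideal.sum_mem _ fun i _ => Ideal.mul_mem_left _ _ (X_mem_idealOfVars i))
    (Ideal.pow_le_self two_ne_zero hq)

/-- **Lemma B2**. -/
lemma IsCoords.mem_sq_of_theta_mem_sq (ht : IsCoords K t) {p : MvPolynomial (Fin g) K}
    (hp : theta K t p ∈ maximalIdeal R ^ 2) : p ∈ idealOfVars (Fin g) K ^ 2 := by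
  obtain ⟨a, v, hq⟩ := exists_linear_decomp p
  set q := p - C a - ∑ i, C (v i) * X i with hqdef
  have hpq : p = C a + ∑ i, C (v i) * X i + q := by rw [hqdef]; ring
  have hθq : theta K t q ∈ maximalIdeal R ^ 2 := ht.theta_mem_pow hq
  have hsum : ∑ i, algebraMap K R (v i) * t i ∈ maximalIdeal R :=
    Ideal.sum_mem _ fun i _ => Ideal.mul_mem_left _ _ (ht.t_mem i)
  have h := hp
  rw [hpq, theta_linear] at h
  have ha : algebraMap K R a ∈ maximalIdeal R := by
    have : algebraMap K R a = (algebraMap K R a + ∑ i, algebraMap K R (v i) * t i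
        + theta K t q) - ∑ i, algebraMap K R (v i) * t i - theta K t q := by ring
    rw [this]
    exact Ideal.sub_mem _ (Ideal.sub_mem _ (Ideal.pow_le_self two_ne_zero h) hsum)
      (Ideal.pow_le_self two_ne_zero hθq)
  have ha0 : a = 0 := eq_zero_of_algebraMap_mem_maximalIdeal ha
  have hv : v = 0 := by
    apply ht.indep
    have : ∑ i, algebraMap K R (v i) * t i = (algebraMap K R a +
        ∑ i, algebraMap K R (v i) * t i + theta K t q) - theta K t q := by
      rw [ha0, map_zero]; ring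
    rw [this]
    exact Ideal.sub_mem _ h hθq
  rw [hpq, ha0, hv]
  simpa using hq


/-- The induced map `P / I ^ k → R / m ^ k`. -/
noncomputable def IsCoords.quotMap (ht : IsCoords K t) (k : ℕ) :
    (MvPolynomial (Fin g) K ⧸ idealOfVars (Fin g) K ^ k) →ₐ[K] (R ⧸ maximalIdeal R ^ k) :=
  Ideal.quotientMapₐ (maximalIdeal R ^ k) (theta K t) (ht.pow_le_comap k)

@[simp] lemma IsCoords.quotMap_mk (ht : IsCoords K t) (k : ℕ) (p : MvPolynomial (Fin g) K) :
    ht.quotMap k (Ideal.Quotient.mk _ p) = Ideal.Quotient.mk _ (theta K t p) := rfl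

lemma IsCoords.quotMap_surjective (ht : IsCoords K t) (k : ℕ) :
    Function.Surjective (ht.quotMap k) := by
  intro y
  obtain ⟨r, rfl⟩ := Ideal.Quotient.mk_surjective y
  obtain ⟨p, hp⟩ := ht.exists_sub_theta_mem_pow k r
  refine ⟨Ideal.Quotient.mk _ p, ?_⟩
  rw [ht.quotMap_mk]
  exact (Ideal.Quotient.eq.mpr hp).symm

lemma IsCoords.quotMap_mk_eq_zero_iff (ht : IsCoords K t) (k : ℕ)
    (p : MvPolynomial (Fin g) K) :
    ht.quotMap k (Ideal.Quotient.mk _ p) = 0 ↔ theta K t p ∈ maximalIdeal R ^ k := by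
  rw [ht.quotMap_mk]; exact Ideal.Quotient.eq_zero_iff_mem

/-- Nakayama for a nilpotent ideal. -/
lemma ideal_eq_bot_of_le_mul_of_pow_eq_bot {A : Type*} [CommRing A] {J Z : Ideal A} {k : ℕ}
    (hJ : J ^ k = ⊥) (hZ : Z ≤ J * Z) : Z = ⊥ := by
  have hZ_pow : ∀ j : ℕ, Z ≤ J ^ j * Z := by
    intro j
    induction j with
    | zero => simp
    | succ j ih =>
      calc Z ≤ J * Z := hZ
        _ ≤ J * (J ^ j * Z) := Ideal.mul_mono_right ih
        _ = J ^ (j + 1) * Z := by rw [pow_succ', mul_assoc]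
  rw [eq_bot_iff]
  calc Z ≤ J ^ k * Z := hZ_pow k
    _ = ⊥ := by rw [hJ, Ideal.bot_mul]

/-- **Lemma C** (`k ≥ 2`): by formal smoothness `P / I ^ k → R / m ^ k` is injective. -/
theorem IsCoords.mem_pow_of_theta_mem_pow_of_two_le [Algebra.FormallySmooth K R]
    (ht : IsCoords K t) {k : ℕ} (hk : 2 ≤ k) {p : MvPolynomial (Fin g) K}
    (hp : theta K t p ∈ maximalIdeal R ^ k) : p ∈ idealOfVars (Fin g) K ^ k := by
  have hk0 : k ≠ 0 := by omega
  let N := MvPolynomial (Fin g) K ⧸ idealOfVars (Fin g) K ^ k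
  let mkN : MvPolynomial (Fin g) K →+* N := Ideal.Quotient.mk (idealOfVars (Fin g) K ^ k)
  let Ibar : Ideal N := (idealOfVars (Fin g) K).map mkN
  let Z : Ideal N := RingHom.ker (ht.quotMap k : N →+* R ⧸ maximalIdeal R ^ k)
  have hIbar_pow : Ibar ^ k = ⊥ := by
    rw [← Ideal.map_pow]; exact Ideal.map_quotient_self _
  have hZ_le : Z ≤ Ibar := by
    intro z hz
    obtain ⟨q, rfl⟩ := Ideal.Quotient.mk_surjective z
    have h1 : theta K t q ∈ maximalIdeal R ^ k := (ht.quotMap_mk_eq_zero_iff k q).mp hz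
    exact Ideal.mem_map_of_mem _ (ht.mem_of_theta_mem (Ideal.pow_le_self hk0 h1))
  have hZ_le2 : ∀ z ∈ Z, ∃ q ∈ idealOfVars (Fin g) K ^ 2, mkN q = z ∧
      theta K t q ∈ maximalIdeal R ^ k := by
    intro z hz
    obtain ⟨q, rfl⟩ := Ideal.Quotient.mk_surjective z
    have h1 : theta K t q ∈ maximalIdeal R ^ k := (ht.quotMap_mk_eq_zero_iff k q).mp hz
    exact ⟨q, ht.mem_sq_of_theta_mem_sq (Ideal.pow_le_pow_right hk h1), rfl, h1⟩
  have hnil : IsNilpotent (RingHom.ker (ht.quotMap k : N →+* R ⧸ maximalIdeal R ^ k)) := by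
    refine ⟨k, ?_⟩
    rw [Ideal.zero_eq_bot, ← le_bot_iff, ← hIbar_pow]
    exact Ideal.pow_right_mono hZ_le k
  let ψ : R →ₐ[K] N := Algebra.FormallySmooth.liftOfSurjective
    (Ideal.Quotient.mkₐ K (maximalIdeal R ^ k)) (ht.quotMap k) (ht.quotMap_surjective k) hnil
  have hψ : ∀ r, ht.quotMap k (ψ r) = Ideal.Quotient.mk _ r := fun r =>
    Algebra.FormallySmooth.liftOfSurjective_apply _ _ _ hnil r
  have hεZ : ∀ q : MvPolynomial (Fin g) K, ψ (theta K t q) - mkN q ∈ Z := by
    intro q
    rw [RingHom.mem_ker, map_sub]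
    change ht.quotMap k (ψ (theta K t q)) - ht.quotMap k (Ideal.Quotient.mk _ q) = 0
    rw [hψ, ht.quotMap_mk, sub_self]
  have hεI : ∀ a ∈ idealOfVars (Fin g) K, ψ (theta K t a) ∈ Ibar := by
    intro a ha
    have h1 := hZ_le (hεZ a)
    have h2 : mkN a ∈ Ibar := Ideal.mem_map_of_mem _ ha
    have : ψ (theta K t a) = (ψ (theta K t a) - mkN a) + mkN a := by ring
    rw [this]
    exact Ideal.add_mem _ h1 h2
  have hψm : maximalIdeal R ≤ Ibar.comap ψ := by
    rw [← ht.span_eq, Ideal.span_le]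
    rintro _ ⟨i, rfl⟩
    have := hεI (X i) (X_mem_idealOfVars i)
    rw [theta_X] at this
    exact this
  have hψmk : ∀ r ∈ maximalIdeal R ^ k, ψ r = 0 := by
    intro r hr
    have h1 : maximalIdeal R ^ k ≤ (Ibar ^ k).comap ψ :=
      (Ideal.pow_right_mono hψm k).trans (Ideal.le_comap_pow _ _)
    have h2 := h1 hr
    rw [hIbar_pow] at h2
    simpa using h2
  have hmul : ∀ y ∈ idealOfVars (Fin g) K * idealOfVars (Fin g) K,
      ψ (theta K t y) - mkN y ∈ Ibar * Z := by
    intro y hy
    refine Submodule.mul_induction_on hy ?_ ?_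
    · intro a ha b hb
      have : ψ (theta K t (a * b)) - mkN (a * b) =
          ψ (theta K t a) * (ψ (theta K t b) - mkN b) + mkN b * (ψ (theta K t a) - mkN a) := by
        simp only [map_mul]; ring
      rw [this]
      refine Ideal.add_mem _ (Ideal.mul_mem_mul (hεI a ha) (hεZ b)) ?_
      exact Ideal.mul_mem_mul (Ideal.mem_map_of_mem _ hb) (hεZ a)
    · intro x y hx hy
      have : ψ (theta K t (x + y)) - mkN (x + y) =
          (ψ (theta K t x) - mkN x) + (ψ (theta K t y) - mkN y) := by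
        simp only [map_add]; ring
      rw [this]
      exact Ideal.add_mem _ hx hy
  have hZ_step : Z ≤ Ibar * Z := by
    intro z hz
    obtain ⟨q, hq2, rfl, hqk⟩ := hZ_le2 z hz
    have h1 := hmul q (by rwa [← pow_two])
    rw [hψmk _ hqk, zero_sub] at h1
    exact (Ideal.neg_mem_iff _).mp h1
  have hZ_bot : Z = ⊥ := ideal_eq_bot_of_le_mul_of_pow_eq_bot hIbar_pow hZ_step
  have hpZ : mkN p ∈ Z := (ht.quotMap_mk_eq_zero_iff k p).mpr hp
  rw [hZ_bot, Ideal.mem_bot] at hpZ
  exact Ideal.Quotient.eq_zero_iff_mem.mp hpZ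


/-- **Lemma C**, all `k`. -/
theorem IsCoords.mem_pow_of_theta_mem_pow [Algebra.FormallySmooth K R]
    (ht : IsCoords K t) (k : ℕ) {p : MvPolynomial (Fin g) K}
    (hp : theta K t p ∈ maximalIdeal R ^ k) : p ∈ idealOfVars (Fin g) K ^ k := by
  rcases Nat.lt_or_ge k 2 with h | h
  · interval_cases k
    · simp
    · rw [pow_one] at hp ⊢
      exact ht.mem_of_theta_mem hp
  · exact ht.mem_pow_of_theta_mem_pow_of_two_le h hp

lemma IsCoords.quotMap_injective [Algebra.FormallySmooth K R] (ht : IsCoords K t) (k : ℕ) :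
    Function.Injective (ht.quotMap k) := by
  rw [injective_iff_map_eq_zero]
  intro z hz
  obtain ⟨q, rfl⟩ := Ideal.Quotient.mk_surjective z
  exact Ideal.Quotient.eq_zero_iff_mem.mpr
    (ht.mem_pow_of_theta_mem_pow k ((ht.quotMap_mk_eq_zero_iff k q).mp hz))

lemma IsCoords.quotMap_bijective [Algebra.FormallySmooth K R] (ht : IsCoords K t) (k : ℕ) :
    Function.Bijective (ht.quotMap k) :=
  ⟨ht.quotMap_injective k, ht.quotMap_surjective k⟩

end Fermat.Agent.AV.SmoothCompl98
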