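import Fermat.Agent.AV.SmoothCompl98
import Fermat.Agent.AV.GcdDescent96

/-!
# FACT-iii, scheme level (helper98)

For `f : X ⟶ Spec K` smooth, `K` algebraically closed and `x` a closed point of `X`, the completion
of `𝒪_{X,x}` is a power series ring over `K`; hence `𝒪_{X,x}` is a UFD as soon as power series
rings over `K` are.
-/

universe u

open AlgebraicGeometry CategoryTheory IsLocalRing

namespace Fermat.Agent.AV.SmoothCompl98

/-- For a field, the map to the stalk of the structure sheaf at any point is bijective. -/
lemma toStalk_bijective_of_field (R : CommRingCat.{u}) (hR : IsField R) (p : PrimeSpectrum.Top R) :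
    Function.Bijective (StructureSheaf.toStalk R p).hom := by
  have h : p.asIdeal.primeCompl ≤ IsUnit.submonoid R := by
    intro a ha
    rcases eq_or_ne a 0 with h0 | h0
    · exact absurd (h0 ▸ p.asIdeal.zero_mem) ha
    · obtain ⟨b, hb⟩ := hR.mul_inv_cancel h0
      exact IsUnit.of_mul_eq_one b hb
  have e := IsLocalization.atUnits R p.asIdeal.primeCompl
    (S := (structurePresheafInCommRingCat R).stalk p) h
  have he : ⇑(StructureSheaf.toStalk R p).hom = e := by
    funext a
    exact (e.commutes a).symm
  rw [he]
  exact e.bijective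

variable {K : Type u} [Field K] {X : Scheme.{u}} (f : X ⟶ Spec (CommRingCat.of K))

/-- The structure map `K → 𝒪_{Spec K, f x}`. -/
noncomputable def baseStalkStr (x : X) :
    CommRingCat.of K ⟶ (Spec (CommRingCat.of K)).presheaf.stalk (f x) :=
  (Scheme.ΓSpecIso (CommRingCat.of K)).inv ≫
    (Spec (CommRingCat.of K)).presheaf.germ ⊤ (f x) trivial

lemma baseStalkStr_bijective (x : X) : Function.Bijective (baseStalkStr f x).hom :=
  toStalk_bijective_of_field (CommRingCat.of K) (Field.toIsField K) (f x)

/-- The structure map `K → 𝒪_{X,x}`. -/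
noncomputable def stalkStr (x : X) : CommRingCat.of K ⟶ X.presheaf.stalk x :=
  baseStalkStr f x ≫ f.stalkMap x

lemma stalkStr_formallySmooth [Smooth f] (x : X) : (stalkStr f x).hom.FormallySmooth := by
  have h1 : (f.stalkMap x).hom.FormallySmooth := by
    have h := f.smoothLocus_eq_top
    have hx : x ∈ f.smoothLocus := by rw [h]; trivial
    exact Scheme.Hom.mem_smoothLocus.mp hx
  have h2 : (baseStalkStr f x).hom.FormallySmooth :=
    .of_bijective (baseStalkStr_bijective f x)
  exact h2.comp h1

lemma stalkStr_residue [IsAlgClosed K] [LocallyOfFiniteType f] (x : X) (hx : IsClosed {x}) :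
    stalkStr f x ≫ X.residue x = (residueFieldIsoBase f x hx).inv := by
  apply Spec.map_injective
  rw [SpecMap_residueFieldIsoBase_inv, Scheme.fromSpecResidueField, stalkStr, Spec.map_comp,
    Spec.map_comp, Category.assoc, ← Scheme.SpecMap_stalkMap_fromSpecStalk,
    Spec.fromSpecStalk_eq]
  rfl

lemma stalkStr_residue_bijective [IsAlgClosed K] [LocallyOfFiniteType f] (x : X)
    (hx : IsClosed {x}) : Function.Bijective (stalkStr f x ≫ X.residue x).hom := by
  rw [stalkStr_residue f x hx]
  exact (ConcreteCategory.isIso_iff_bijective _).mp inferInstance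

/-- **FACT-iii** (scheme level): the completion of the local ring of a smooth `K`-scheme at a closed
point is a power series ring over `K` (`K` algebraically closed). -/
theorem exists_completion_stalk_equiv [IsAlgClosed K] [Smooth f] (x : X) (hx : IsClosed {x}) :
    ∃ g : ℕ, Nonempty (AdicCompletion (maximalIdeal (X.presheaf.stalk x)) (X.presheaf.stalk x) ≃+*
      MvPowerSeries (Fin g) K) := by
  let _ : Algebra K (X.presheaf.stalk x) := (stalkStr f x).hom.toAlgebra
  have : IsLocallyNoetherian X := LocallyOfFiniteType.isLocallyNoetherian f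
  have : Algebra.FormallySmooth K (X.presheaf.stalk x) := stalkStr_formallySmooth f x
  refine exists_ringEquiv_mvPowerSeries K (X.presheaf.stalk x) ?_
  exact (stalkStr_residue_bijective f x hx).2

/-- **FACT (i)+(ii)+(iii)**: the local ring of a smooth `K`-scheme at a closed point is a UFD,
given that power series rings over `K` are UFDs (FACT-i). -/
theorem isDomain_and_ufm_stalk [IsAlgClosed K] [Smooth f] (x : X) (hx : IsClosed {x})
    (hPS : ∀ g : ℕ, UniqueFactorizationMonoid (MvPowerSeries (Fin g) K)) :
    ∃ _ : IsDomain (X.presheaf.stalk x), UniqueFactorizationMonoid (X.presheaf.stalk x) := by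
  obtain ⟨g, ⟨e⟩⟩ := exists_completion_stalk_equiv f x hx
  have : IsLocallyNoetherian X := LocallyOfFiniteType.isLocallyNoetherian f
  have : IsDomain (MvPowerSeries (Fin g) K) := NoZeroDivisors.to_isDomain _
  have : IsDomain (AdicCompletion (maximalIdeal (X.presheaf.stalk x)) (X.presheaf.stalk x)) :=
    e.toMulEquiv.isDomain _
  have : UniqueFactorizationMonoid
      (AdicCompletion (maximalIdeal (X.presheaf.stalk x)) (X.presheaf.stalk x)) :=
    e.symm.toMulEquiv.uniqueFactorizationMonoid (hPS g)
  exact GcdDescent96.isDomain_and_ufm_of_adicCompletion (X.presheaf.stalk x)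

end Fermat.Agent.AV.SmoothCompl98
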