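import Fermat.Agent.AV.SmoothCompl98All
import Fermat.Agent.AV.Fact7.PowerSeriesUFD

/-!
# FACT (i)+(ii)+(iii) closed (helper98): local rings of a smooth scheme over an algebraically
closed field are UFDs — unconditional.

Inputs: helper7's `Fact7.ufm_mvPowerSeries_fin` (FACT-i), helper96's `GcdDescent96` (FACT-ii),
`SmoothCompl98` (FACT-iii), helper49's `Fact49.StalkUFD` (generisation).
-/

universe u

open AlgebraicGeometry CategoryTheory IsLocalRing

namespace Fermat.Agent.AV.SmoothUFD98

variable {K : Type u} [Field K] [IsAlgClosed K] {X : Scheme.{u}}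
  (f : X ⟶ Spec (CommRingCat.of K)) [Smooth f]

include f

/-- The local ring of a smooth `K`-scheme at a closed point is a domain and a UFD. -/
theorem isDomain_and_ufm_stalk_of_isClosed (x : X) (hx : IsClosed ({x} : Set X)) :
    ∃ _ : IsDomain (X.presheaf.stalk x), UniqueFactorizationMonoid (X.presheaf.stalk x) :=
  SmoothCompl98.isDomain_and_ufm_stalk f x hx (fun g => Fact7.ufm_mvPowerSeries_fin K g)

/-- Every local ring of a smooth `K`-scheme is a domain and a UFD. -/
theorem isDomain_and_ufm_stalk (z : X) :
    ∃ _ : IsDomain (X.presheaf.stalk z), UniqueFactorizationMonoid (X.presheaf.stalk z) :=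
  SmoothCompl98.isDomain_and_ufm_stalk_all f (fun g => Fact7.ufm_mvPowerSeries_fin K g) z

theorem isDomain_stalk (z : X) : IsDomain (X.presheaf.stalk z) :=
  (isDomain_and_ufm_stalk f z).1

theorem ufm_stalk (z : X) : UniqueFactorizationMonoid (X.presheaf.stalk z) :=
  (isDomain_and_ufm_stalk f z).2

/-- The hypothesis `hfact` of helper49's `Fact49.PurityClosed.exists_cartier_data_of_closedPoints`. -/
theorem ufm_stalk_of_isClosed :
    ∀ x : X, IsClosed ({x} : Set X) → UniqueFactorizationMonoid (X.presheaf.stalk x) :=
  fun x _ => ufm_stalk f x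

end Fermat.Agent.AV.SmoothUFD98
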